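import Mathlib.RingTheory.Invariant.Profinite
import Mathlib.RingTheory.Invariant.Galois
import Mathlib.RingTheory.Valuation.LocalSubring
import Mathlib.RingTheory.Polynomial.Content
import Mathlib.FieldTheory.Galois.Profinite
import Mathlib.FieldTheory.Galois.Infinite
import Mathlib.FieldTheory.KrullTopology
import Mathlib.FieldTheory.Perfect
import Mathlib.FieldTheory.Finite.Basic
import Fermat.Prelude.Def_EllipticCurve_FrobeniusTrace
import Fermat.Prelude.Def_FLTPrelim_Ramification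

set_option autoImplicit false

namespace Fermat.Agent.Lib.Frobenius

open Polynomial
open scoped Pointwise

variable {L : Type*} [Field L]

theorem aeval_mem_of_mem (V : ValuationSubring L) {x : L} (hx : x ∈ V) (g : ℤ[X]) :
    aeval x g ∈ V := by
  have h : aeval x g = algebraMap V L (aeval (⟨x, hx⟩ : V) g) := by
    rw [← aeval_algebraMap_apply]
    rfl
  rw [h]
  exact (aeval (⟨x, hx⟩ : V) g).2

theorem aeval_eq_divX (x : L) (g : ℤ[X]) :
    aeval x g = aeval x (divX g) * x + (g.coeff 0 : L) := by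
  conv_lhs => rw [← divX_mul_X_add g]
  simp

theorem aeval_divX_iterate_mem (V : ValuationSubring L) (x : L) (f : ℤ[X])
    (hf : aeval x f = 0) (r : ℕ) : aeval x (divX^[r] f) ∈ V := by
  by_cases hx : x ∈ V
  · exact aeval_mem_of_mem V hx _
  · have hx0 : x ≠ 0 := fun h => hx (h ▸ V.zero_mem)
    have hxi : x⁻¹ ∈ V := (V.mem_or_inv_mem x).resolve_left hx
    induction r with
    | zero => simp [hf, V.zero_mem]
    | succ r ih =>
      rw [Function.iterate_succ_apply']
      have h := aeval_eq_divX x (divX^[r] f)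
      have h2 : aeval x (divX (divX^[r] f)) =
          (aeval x (divX^[r] f) - ((divX^[r] f).coeff 0 : L)) * x⁻¹ := by
        rw [h]; field_simp; ring
      rw [h2]
      exact V.mul_mem _ _ (V.sub_mem ih (intCast_mem V _)) hxi

theorem isIntegral_of_forall_mem {x : L} (h : ∀ V : ValuationSubring L, x ∈ V) :
    IsIntegral ℤ x := by
  by_contra hx
  have : IsIntegrallyClosedIn (integralClosure ℤ L).toSubring L :=
    inferInstanceAs (IsIntegrallyClosedIn (integralClosure ℤ L) L)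
  obtain ⟨V, -, hV⟩ := Subring.exists_le_valuationSubring_of_isIntegrallyClosedIn
    (R := (integralClosure ℤ L).toSubring) (x := x) hx
  exact hV (h V)

theorem mem_of_isIntegral (V : ValuationSubring L) {x : L} (h : IsIntegral ℤ x) : x ∈ V := by
  obtain ⟨y, rfl⟩ := IsIntegrallyClosed.algebraMap_eq_of_integral (R := V) (K := L)
    (h.tower_top (A := V))
  exact y.2

theorem isIntegral_aeval_divX_iterate (x : L) (f : ℤ[X])
    (hf : aeval x f = 0) (r : ℕ) : IsIntegral ℤ (aeval x (divX^[r] f)) :=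
  isIntegral_of_forall_mem fun V => aeval_divX_iterate_mem V x f hf r

theorem coeff_divX_iterate (f : ℤ[X]) (r n : ℕ) : (divX^[r] f).coeff n = f.coeff (n + r) := by
  induction r generalizing n with
  | zero => simp
  | succ r ih =>
    rw [Function.iterate_succ_apply', coeff_divX, ih]
    congr 1
    ring

theorem mul_mem_nonunits (A : ValuationSubring L) {x y : L} (hx : x ∈ A)
    (hy : y ∈ A.nonunits) : x * y ∈ A.nonunits := by
  rw [A.mem_nonunits_iff] at hy ⊢
  rw [map_mul]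
  exact Right.mul_lt_one_of_le_of_lt ((A.valuation_le_one_iff x).mpr hx) hy

theorem one_not_mem_nonunits (A : ValuationSubring L) : (1 : L) ∉ A.nonunits := by
  rw [A.mem_nonunits_iff]
  simp

theorem int_dvd_of_mem_nonunits (A : ValuationSubring L) {ℓ : ℕ} (hℓ : ℓ.Prime)
    (hA : (ℓ : L) ∈ A.nonunits) {a : ℤ} (ha : (a : L) ∈ A.nonunits) : (ℓ : ℤ) ∣ a := by
  by_contra h
  have hcop : IsCoprime (ℓ : ℤ) a := (Nat.prime_iff_prime_int.mp hℓ).coprime_iff_not_dvd.mpr h
  obtain ⟨m, n, hmn⟩ := hcop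
  apply one_not_mem_nonunits A
  have h1 : (1 : L) = (m : L) * (ℓ : L) + (n : L) * (a : L) := by
    have := congrArg (Int.cast : ℤ → L) hmn
    push_cast at this
    exact this.symm
  rw [h1]
  exact A.nonunits.add_mem (mul_mem_nonunits A (intCast_mem A m) hA)
    (mul_mem_nonunits A (intCast_mem A n) ha)

theorem exists_mul_eq_of_mem [Algebra ℚ L] [Algebra.IsAlgebraic ℚ L] (A : ValuationSubring L)
    {ℓ : ℕ} (hℓ : ℓ.Prime) (hA : (ℓ : L) ∈ A.nonunits) {x : L} (hx : x ∈ A) :
    ∃ b s : L, IsIntegral ℤ b ∧ IsIntegral ℤ s ∧ s ∉ A.nonunits ∧ x * s = b := by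
  have : CharZero L := algebraRat.charZero L
  have halg : IsAlgebraic ℤ x :=
    (IsFractionRing.isAlgebraic_iff ℤ ℚ L).mpr (Algebra.IsAlgebraic.isAlgebraic x)
  obtain ⟨f₀, hf₀, hf₀x⟩ := halg
  set f := f₀.primPart with hf
  have hfx : aeval x f = 0 := aeval_primPart_eq_zero hf₀ hf₀x
  have hprim : f.IsPrimitive := f₀.isPrimitive_primPart
  by_contra hcon
  push Not at hcon
  have hu : ∀ r : ℕ, aeval x (divX^[r + 1] f) ∈ A.nonunits := by
    intro r
    by_contra hr
    refine hcon (aeval x (divX^[r] f) - (((divX^[r] f).coeff 0 : ℤ) : L)) _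
      ((isIntegral_aeval_divX_iterate x f hfx r).sub isIntegral_algebraMap)
      (isIntegral_aeval_divX_iterate x f hfx (r + 1)) hr ?_
    rw [aeval_eq_divX x (divX^[r] f), Function.iterate_succ_apply']
    ring
  have hcoeff : ∀ r : ℕ, ((f.coeff r : ℤ) : L) ∈ A.nonunits := by
    intro r
    have h1 := aeval_eq_divX x (divX^[r] f)
    rw [coeff_divX_iterate, zero_add, ← Function.iterate_succ_apply' divX r f] at h1
    have h2 : ((f.coeff r : ℤ) : L) = aeval x (divX^[r] f) - x * aeval x (divX^[r + 1] f) := by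
      rw [h1]; ring
    rw [h2]
    refine A.nonunits.sub_mem ?_ (mul_mem_nonunits A hx (hu r))
    cases r with
    | zero => simp [hfx, A.nonunits.zero_mem]
    | succ r => exact hu r
  have hdvd : C (ℓ : ℤ) ∣ f := by
    rw [C_dvd_iff_dvd_coeff]
    exact fun r => int_dvd_of_mem_nonunits A hℓ hA (hcoeff r)
  have := hprim _ hdvd
  rw [Int.isUnit_iff] at this
  have h2 := hℓ.two_le
  omega

def intSubring (L : Type*) [Field L] : Subring L := (integralClosure ℤ L).toSubring

theorem mem_intSubring {x : L} : x ∈ intSubring L ↔ IsIntegral ℤ x := Iff.rfl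

instance instIsInvariantSubring [Algebra ℚ L] : IsInvariantSubring (L ≃ₐ[ℚ] L) (intSubring L) where
  smul_mem g x hx := by
    rw [mem_intSubring] at hx ⊢
    exact hx.map (g.restrictScalars ℤ)

theorem coe_smul_intSubring [Algebra ℚ L] (g : L ≃ₐ[ℚ] L) (b : intSubring L) :
    ((g • b : intSubring L) : L) = g (b : L) := rfl

instance instIsInvariant [Algebra ℚ L] [IsGalois ℚ L] :
    Algebra.IsInvariant ℤ (intSubring L) (L ≃ₐ[ℚ] L) where
  isInvariant b hb := by
    have h1 : ∀ g : L ≃ₐ[ℚ] L, g (b : L) = b := fun g => congrArg Subtype.val (hb g)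
    obtain ⟨q, hq⟩ := (InfiniteGalois.mem_range_algebraMap_iff_fixed (k := ℚ) (b : L)).mpr h1
    have h2 : IsIntegral ℤ q := by
      have := b.2
      rw [mem_intSubring, ← hq] at this
      exact (isIntegral_algebraMap_iff (algebraMap ℚ L).injective).mp this
    obtain ⟨a, ha⟩ := IsIntegrallyClosed.algebraMap_eq_of_integral h2
    refine ⟨a, Subtype.ext ?_⟩
    rw [← hq, ← ha]
    simp


theorem intSubring_le (A : ValuationSubring L) : intSubring L ≤ A.toSubring :=
  fun _ hx => mem_of_isIntegral A hx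

/-- The centre of a valuation subring on the ring of algebraic integers. -/
def centre (A : ValuationSubring L) : Ideal (intSubring L) :=
  (IsLocalRing.maximalIdeal A).comap (Subring.inclusion (intSubring_le A))

theorem mem_centre (A : ValuationSubring L) (b : intSubring L) :
    b ∈ centre A ↔ (b : L) ∈ A.nonunits := by
  rw [centre, Ideal.mem_comap, ← A.coe_mem_nonunits_iff]
  rfl

instance centre_isPrime (A : ValuationSubring L) : (centre A).IsPrime :=
  Ideal.comap_isPrime _ _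

theorem centre_liesOver (A : ValuationSubring L) {ℓ : ℕ} (hℓ : ℓ.Prime)
    (hA : (ℓ : L) ∈ A.nonunits) : (centre A).LiesOver (Ideal.span {(ℓ : ℤ)}) := by
  constructor
  ext a
  rw [Ideal.mem_span_singleton, Ideal.under_def, Ideal.mem_comap, mem_centre]
  constructor
  · rintro ⟨c, rfl⟩
    have : ((algebraMap ℤ (intSubring L) ((ℓ : ℤ) * c) : intSubring L) : L) = (c : L) * (ℓ : L) := by
      simp [mul_comm]
    rw [this]
    exact mul_mem_nonunits A (intCast_mem A c) hA
  · intro h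
    have : ((algebraMap ℤ (intSubring L) a : intSubring L) : L) = (a : L) := by simp
    rw [this] at h
    exact int_dvd_of_mem_nonunits A hℓ hA h


instance instIsIntegral_intSubring : Algebra.IsIntegral ℤ (intSubring L) :=
  inferInstanceAs (Algebra.IsIntegral ℤ (integralClosure ℤ L))

attribute [local instance] Ideal.Quotient.field in
theorem exists_frobenius_on_integers [Algebra ℚ L] [IsGalois ℚ L] (A : ValuationSubring L)
    {ℓ : ℕ} (hℓ : ℓ.Prime) (hA : (ℓ : L) ∈ A.nonunits) :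
    ∃ σ : L ≃ₐ[ℚ] L, ∀ b : L, IsIntegral ℤ b → σ b - b ^ ℓ ∈ A.nonunits := by
  let G := L ≃ₐ[ℚ] L
  let B := intSubring L
  let P : Ideal ℤ := Ideal.span {(ℓ : ℤ)}
  let Q : Ideal B := centre A
  have hQP : Q.LiesOver P := centre_liesOver A hℓ hA
  have hPmax : P.IsMaximal :=
    (PrincipalIdealRing.isMaximal_of_irreducible (Nat.prime_iff_prime_int.mp hℓ).irreducible)
  have hQmax : Q.IsMaximal := Ideal.IsMaximal.of_liesOver_isMaximal Q P
  let _ : TopologicalSpace B := ⊥
  have : DiscreteTopology B := ⟨rfl⟩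
  have : ContinuousSMul G B := by
    rw [continuousSMul_iff_stabilizer_isOpen]
    intro b
    convert stabilizer_isOpen_of_isIntegral (K := ℚ) (b : L) using 1
    ext g
    simp only [SetLike.mem_coe, MulAction.mem_stabilizer_iff]
    exact Subtype.ext_iff
  have hfin : Finite (ℤ ⧸ P) := by
    have : NeZero ℓ := ⟨hℓ.ne_zero⟩
    exact Finite.of_equiv _ (Int.quotientSpanNatEquivZMod ℓ).symm.toEquiv
  have hchar : CharP (B ⧸ Q) ℓ := by
    rw [CharP.charP_iff_prime_eq_zero hℓ]
    have h0 : ((ℓ : B) : B ⧸ Q) = 0 := by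
      rw [Ideal.Quotient.eq_zero_iff_mem, mem_centre]
      simpa using hA
    simpa using h0
  have hexp : ExpChar (B ⧸ Q) ℓ := .prime hℓ
  have : PerfectField (B ⧸ Q) := Algebra.IsAlgebraic.perfectField (K := ℤ ⧸ P)
  have : PerfectRing (B ⧸ Q) ℓ := PerfectField.toPerfectRing ℓ
  let l : (B ⧸ Q) ≃ₐ[ℤ ⧸ P] B ⧸ Q :=
    { __ := frobeniusEquiv (B ⧸ Q) ℓ,
      commutes' r := by
        obtain ⟨n, rfl⟩ := Ideal.Quotient.mk_surjective r
        have h1 : (Ideal.Quotient.mk P n) ^ ℓ = Ideal.Quotient.mk P n := by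
          rw [← map_pow, Ideal.Quotient.eq, Ideal.mem_span_singleton]
          have : Fact ℓ.Prime := ⟨hℓ⟩
          rw [← ZMod.intCast_zmod_eq_zero_iff_dvd]
          push_cast
          rw [ZMod.pow_card, sub_self]
        change (algebraMap (ℤ ⧸ P) (B ⧸ Q) (Ideal.Quotient.mk P n)) ^ ℓ = _
        rw [← map_pow, h1] }
  obtain ⟨σ, hσ⟩ := Ideal.Quotient.stabilizerHom_surjective_of_profinite (G := G) P Q l
  refine ⟨σ.1, fun b hb => ?_⟩
  have h1 := DFunLike.congr_fun hσ (Ideal.Quotient.mk Q ⟨b, hb⟩)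
  have h2 : l (Ideal.Quotient.mk Q ⟨b, hb⟩) = (Ideal.Quotient.mk Q ⟨b, hb⟩) ^ ℓ := rfl
  rw [h2, Ideal.Quotient.stabilizerHom_apply, ← map_pow, Ideal.Quotient.eq, mem_centre] at h1
  exact h1

theorem inv_mem_of_not_mem_nonunits (A : ValuationSubring L) {s : L}
    (hs : s ∉ A.nonunits) : s⁻¹ ∈ A := by
  rw [A.mem_nonunits_iff_or] at hs
  push Not at hs
  exact hs.2

theorem ne_zero_of_not_mem_nonunits (A : ValuationSubring L) {s : L}
    (hs : s ∉ A.nonunits) : s ≠ 0 := by
  rw [A.mem_nonunits_iff_or] at hs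
  push Not at hs
  exact hs.1

theorem pow_mem_nonunits_iff (A : ValuationSubring L) {s : L} {n : ℕ} (hn : n ≠ 0) :
    s ^ n ∈ A.nonunits ↔ s ∈ A.nonunits := by
  rw [A.mem_nonunits_iff, A.mem_nonunits_iff, map_pow]
  exact pow_lt_one_iff hn

theorem exists_isFrobeniusAt [Algebra ℚ L] [IsGalois ℚ L] (A : ValuationSubring L) {ℓ : ℕ}
    (hℓ : ℓ.Prime) (hA : A.LiesOverPrime ℓ) : ∃ σ : L ≃ₐ[ℚ] L, A.IsFrobeniusAt σ ℓ := by
  obtain ⟨σ, hσ⟩ := exists_frobenius_on_integers A hℓ hA
  have hint : ∀ (τ : L ≃ₐ[ℚ] L) (b : L), IsIntegral ℤ b → IsIntegral ℤ (τ b) :=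
    fun τ b hb => hb.map (τ.restrictScalars ℤ)
  have h1 : ∀ s : L, IsIntegral ℤ s → (σ s ∈ A.nonunits ↔ s ∈ A.nonunits) := by
    intro s hs
    rw [← pow_mem_nonunits_iff A hℓ.ne_zero (s := s)]
    constructor
    · intro h
      have := A.nonunits.sub_mem h (hσ s hs)
      simpa using this
    · intro h
      have := A.nonunits.add_mem (hσ s hs) h
      simpa using this
  have hmem : ∀ x ∈ A, σ x ∈ A := by
    intro x hx
    obtain ⟨b, s, hb, hs, hsA, hxs⟩ := exists_mul_eq_of_mem A hℓ hA hx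
    have hσs : σ s ∉ A.nonunits := fun h => hsA ((h1 s hs).mp h)
    have h2 : σ x = σ b * (σ s)⁻¹ := by
      rw [← hxs, map_mul, mul_assoc, mul_inv_cancel₀ (ne_zero_of_not_mem_nonunits A hσs), mul_one]
    rw [h2]
    exact A.mul_mem _ _ (mem_of_isIntegral A (hint σ b hb)) (inv_mem_of_not_mem_nonunits A hσs)
  have hmem' : ∀ x ∈ A, σ.symm x ∈ A := by
    intro x hx
    obtain ⟨b, s, hb, hs, hsA, hxs⟩ := exists_mul_eq_of_mem A hℓ hA hx
    have hσs : σ.symm s ∉ A.nonunits := by
      intro h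
      apply hsA
      have := (h1 _ (hint σ.symm s hs)).mpr h
      simpa using this
    have h2 : σ.symm x = σ.symm b * (σ.symm s)⁻¹ := by
      rw [← hxs, map_mul, mul_assoc, mul_inv_cancel₀ (ne_zero_of_not_mem_nonunits A hσs), mul_one]
    rw [h2]
    exact A.mul_mem _ _ (mem_of_isIntegral A (hint σ.symm b hb))
      (inv_mem_of_not_mem_nonunits A hσs)
  have hstab : σ ∈ A.decompositionSubgroup ℚ := by
    rw [MulAction.mem_stabilizer_iff]
    ext x
    rw [ValuationSubring.mem_pointwise_smul_iff_inv_smul_mem]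
    constructor
    · intro h
      have := hmem _ h
      simpa using this
    · intro h
      exact hmem' x h
  refine ⟨σ, hstab, fun x => ?_⟩
  obtain ⟨x, rfl⟩ := IsLocalRing.residue_surjective x
  rw [← IsLocalRing.ResidueField.residue_smul, ← map_pow, ← sub_eq_zero, ← map_sub,
    IsLocalRing.residue_eq_zero_iff, ← A.coe_mem_nonunits_iff]
  change σ (x : L) - (x : L) ^ ℓ ∈ A.nonunits
  obtain ⟨b, s, hb, hs, hsA, hxs⟩ := exists_mul_eq_of_mem A hℓ hA x.2
  have hσs : σ s ∉ A.nonunits := fun h => hsA ((h1 s hs).mp h)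
  have h3 : σ (x : L) - (x : L) ^ ℓ =
      (σ s)⁻¹ * ((σ b - b ^ ℓ) - (x : L) ^ ℓ * (σ s - s ^ ℓ)) := by
    have hne := ne_zero_of_not_mem_nonunits A hσs
    rw [← hxs, map_mul]
    field_simp
    ring
  rw [h3]
  exact mul_mem_nonunits A (inv_mem_of_not_mem_nonunits A hσs)
    (A.nonunits.sub_mem (hσ b hb) (mul_mem_nonunits A (A.pow_mem x.2 ℓ) (hσ s hs)))

theorem exists_liesOverPrime (L : Type*) [Field L] [CharZero L] {ℓ : ℕ} (hℓ : ℓ.Prime) :
    ∃ A : ValuationSubring L, A.LiesOverPrime ℓ := by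
  let R : Subring L := (Int.castRingHom L).range
  let e : R := ⟨(ℓ : L), ⟨(ℓ : ℤ), by simp⟩⟩
  have hI : Ideal.span {e} ≠ ⊤ := by
    intro h
    rw [Ideal.span_singleton_eq_top] at h
    obtain ⟨⟨_, ⟨n, rfl⟩⟩, hc⟩ := h.exists_right_inv
    have h1 : (ℓ : L) * (n : L) = 1 := congrArg Subtype.val hc
    have h2 : (ℓ : ℤ) * n = 1 := by exact_mod_cast h1
    have h3 : IsUnit (ℓ : ℤ) := IsUnit.of_mul_eq_one _ h2
    rw [Int.isUnit_iff] at h3
    have h4 := hℓ.two_le
    omega
  obtain ⟨A, -, hA⟩ := Ideal.image_subset_nonunits_valuationSubring _ hI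
  exact ⟨A, hA ⟨e, Ideal.subset_span rfl, rfl⟩⟩

theorem isGalois_algebraicClosure (inst : Algebra ℚ (AlgebraicClosure ℚ)) :
    @IsGalois ℚ _ (AlgebraicClosure ℚ) _ inst := by
  have h : inst = AlgebraicClosure.instAlgebra ℚ := Subsingleton.elim _ _
  rw [h]
  infer_instance

theorem exists_frobenius {ℓ : ℕ} (hℓ : ℓ.Prime) :
    ∃ (A : ValuationSubring (AlgebraicClosure ℚ))
      (σ : AlgebraicClosure ℚ ≃ₐ[ℚ] AlgebraicClosure ℚ),
      A.LiesOverPrime ℓ ∧ A.IsFrobeniusAt σ ℓ := by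
  have := isGalois_algebraicClosure inferInstance
  obtain ⟨A, hA⟩ := exists_liesOverPrime (AlgebraicClosure ℚ) hℓ
  obtain ⟨σ, hσ⟩ := exists_isFrobeniusAt A hℓ hA
  exact ⟨A, σ, hA, hσ⟩

end Fermat.Agent.Lib.Frobenius
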