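import Fermat.Agent.GAL.RED.CurveBasic

/-!
# Evaluation of functions at places (constant field algebraically closed)

`ev P f : K` is the value of `f` at the place `P` (junk value `0` if `f` has a pole at `P`).
-/

set_option autoImplicit false

namespace Fermat.Agent.Lib.PlaceEval

open AlgebraicCurve Fermat.Agent.Lib.RR Fermat.Agent.GAL.RED

variable {K F : Type*} [Field K] [Field F] [Algebra K F] [IsFF K F] [IsAlgClosed K]

/-- the residue field of a place is `K`. -/
noncomputable def resEquiv (P : Place K F) : K ≃+* P.ResidueField :=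
  RingEquiv.ofBijective (algebraMap K P.ResidueField) (curveBasic_residue_bijective P)

/-- evaluation on the valuation ring. -/
noncomputable def evHom (P : Place K F) : P.toValuationSubring →+* K :=
  (resEquiv P).symm.toRingHom.comp (IsLocalRing.residue P.toValuationSubring)

open Classical in
/-- The value of `f` at `P` (`0` if `f` has a pole at `P`). -/
noncomputable def ev (P : Place K F) (f : F) : K :=
  if h : f ∈ P.toValuationSubring then evHom P ⟨f, h⟩ else 0

theorem ev_of_mem (P : Place K F) {f : F} (h : f ∈ P.toValuationSubring) :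
    ev P f = evHom P ⟨f, h⟩ := by simp [ev, h]

theorem ev_of_not_mem (P : Place K F) {f : F} (h : f ∉ P.toValuationSubring) : ev P f = 0 := by
  simp [ev, h]

theorem mem_iff (P : Place K F) {f : F} : f ∈ P.toValuationSubring ↔ 0 ≤ P.ord f := by
  rcases eq_or_ne f 0 with rfl | hf
  · simp
  · exact Fermat.Agent.S24.mem_iff_ord_nonneg P hf

theorem evHom_algebraMap (P : Place K F) (a : K) :
    evHom P (algebraMap K P.toValuationSubring a) = a := by
  show (resEquiv P).symm (IsLocalRing.residue _ (algebraMap K P.toValuationSubring a)) = a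
  rw [RingEquiv.symm_apply_eq]
  rfl

@[simp] theorem ev_algebraMap (P : Place K F) (a : K) : ev P (algebraMap K F a) = a := by
  rw [ev_of_mem P (P.algebraMap_mem' a)]
  exact evHom_algebraMap P a

@[simp] theorem ev_zero (P : Place K F) : ev P (0 : F) = 0 := by
  simpa using ev_algebraMap P (0 : K)

@[simp] theorem ev_one (P : Place K F) : ev P (1 : F) = 1 := by
  simpa using ev_algebraMap P (1 : K)

theorem ev_add (P : Place K F) {f g : F} (hf : 0 ≤ P.ord f) (hg : 0 ≤ P.ord g) :
    ev P (f + g) = ev P f + ev P g := by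
  have hf' := (mem_iff P).2 hf
  have hg' := (mem_iff P).2 hg
  rw [ev_of_mem P hf', ev_of_mem P hg', ev_of_mem P (add_mem hf' hg'), ← map_add]
  rfl

theorem ev_mul (P : Place K F) {f g : F} (hf : 0 ≤ P.ord f) (hg : 0 ≤ P.ord g) :
    ev P (f * g) = ev P f * ev P g := by
  have hf' := (mem_iff P).2 hf
  have hg' := (mem_iff P).2 hg
  rw [ev_of_mem P hf', ev_of_mem P hg', ev_of_mem P (mul_mem hf' hg'), ← map_mul]
  rfl

theorem ev_neg (P : Place K F) (f : F) : ev P (-f) = -ev P f := by
  by_cases hf : f ∈ P.toValuationSubring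
  · rw [ev_of_mem P hf, ev_of_mem P (neg_mem hf), ← map_neg]
    rfl
  · rw [ev_of_not_mem P hf, ev_of_not_mem P (fun h => hf (by simpa using neg_mem h)), neg_zero]

theorem ev_sub (P : Place K F) {f g : F} (hf : 0 ≤ P.ord f) (hg : 0 ≤ P.ord g) :
    ev P (f - g) = ev P f - ev P g := by
  rw [sub_eq_add_neg, ev_add P hf (by rwa [ord_neg]), ev_neg, sub_eq_add_neg]

theorem ev_smul (P : Place K F) (a : K) (f : F) : ev P (a • f) = a * ev P f := by
  rcases eq_or_ne a 0 with rfl | ha
  · simp
  by_cases hf : f ∈ P.toValuationSubring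
  · rw [Algebra.smul_def, ev_mul P (by rw [ord_algebraMap]) ((mem_iff P).1 hf), ev_algebraMap]
  · rw [ev_of_not_mem P hf, mul_zero]
    apply ev_of_not_mem
    intro h
    apply hf
    have : f = algebraMap K F a⁻¹ * (a • f) := by
      rw [Algebra.smul_def, ← mul_assoc, ← map_mul, inv_mul_cancel₀ ha, map_one, one_mul]
    rw [this]
    exact mul_mem (P.algebraMap_mem' _) h

theorem ev_pow (P : Place K F) {f : F} (hf : 0 ≤ P.ord f) (n : ℕ) : ev P (f ^ n) = ev P f ^ n := by
  induction n with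
  | zero => simp
  | succ n ih =>
    rw [pow_succ, pow_succ, ev_mul P (by rw [ord_pow]; positivity) hf, ih]

/-- `ev P f = 0` iff `f` vanishes at `P`. -/
theorem ev_eq_zero_iff (P : Place K F) {f : F} (hf : 0 ≤ P.ord f) :
    ev P f = 0 ↔ f = 0 ∨ 0 < P.ord f := by
  have hf' := (mem_iff P).2 hf
  rw [ev_of_mem P hf']
  show (resEquiv P).symm (IsLocalRing.residue _ (⟨f, hf'⟩ : P.toValuationSubring)) = 0 ↔ _
  rw [map_eq_zero_iff _ (resEquiv P).symm.injective, IsLocalRing.residue_eq_zero_iff,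
    Fermat.Agent.S24.mem_maximalIdeal_iff]

theorem ev_ne_zero (P : Place K F) {f : F} (hf0 : f ≠ 0) (hf : P.ord f = 0) : ev P f ≠ 0 := by
  rw [Ne, ev_eq_zero_iff P hf.ge]
  rintro (h | h)
  · exact hf0 h
  · omega

theorem ev_eq_zero_of_pos (P : Place K F) {f : F} (hf : 0 < P.ord f) : ev P f = 0 :=
  (ev_eq_zero_iff P hf.le).2 (Or.inr hf)

/-- characterisation of the value. -/
theorem ev_eq_iff (P : Place K F) {f : F} (hf : 0 ≤ P.ord f) (a : K) :
    ev P f = a ↔ f = algebraMap K F a ∨ 0 < P.ord (f - algebraMap K F a) := by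
  have h0 : 0 ≤ P.ord (algebraMap K F a) := by rw [ord_algebraMap]
  have h1 : 0 ≤ P.ord (f - algebraMap K F a) :=
    (mem_iff P).1 (sub_mem ((mem_iff P).2 hf) ((mem_iff P).2 h0))
  rw [← sub_eq_zero, ← ev_algebraMap P a, ← ev_sub P hf h0, ev_eq_zero_iff P h1, ev_algebraMap,
    sub_eq_zero]

theorem ord_sub_ev_pos (P : Place K F) {f : F} (hf : 0 ≤ P.ord f) :
    f = algebraMap K F (ev P f) ∨ 0 < P.ord (f - algebraMap K F (ev P f)) :=
  (ev_eq_iff P hf _).1 rfl

theorem ev_inv (P : Place K F) {f : F} (hf : P.ord f = 0) : ev P f⁻¹ = (ev P f)⁻¹ := by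
  rcases eq_or_ne f 0 with rfl | hf0
  · simp
  have h1 : ev P (f * f⁻¹) = ev P f * ev P f⁻¹ := ev_mul P hf.ge (by rw [P.ord_inv, hf, neg_zero])
  rw [mul_inv_cancel₀ hf0, ev_one] at h1
  exact eq_inv_of_mul_eq_one_right h1.symm

theorem ev_div (P : Place K F) {f g : F} (hf : 0 ≤ P.ord f) (hg : P.ord g = 0) :
    ev P (f / g) = ev P f / ev P g := by
  rw [div_eq_mul_inv, ev_mul P hf (by rw [P.ord_inv, hg, neg_zero]), ev_inv P hg, div_eq_mul_inv]

theorem ev_zpow (P : Place K F) {f : F} (hf : P.ord f = 0) (n : ℤ) :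
    ev P (f ^ n) = ev P f ^ n := by
  cases n with
  | ofNat n => simpa using ev_pow P hf.ge n
  | negSucc n =>
    rw [zpow_negSucc, zpow_negSucc, ev_inv P (by rw [ord_pow, hf, mul_zero]), ev_pow P hf.ge]

end Fermat.Agent.Lib.PlaceEval
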