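import Mathlib
import Fermat.Prelude.Def_ModularCurve_GenusNumerics

open CongruenceSubgroup ModularGroup Matrix MatrixGroups

namespace Fermat.Agent.Lib.Gamma0Cosets

variable {N : ℕ}

theorem mul_apply_zero_zero (g h : SL(2,ℤ)) : (g * h) 0 0 = g 0 0 * h 0 0 + g 0 1 * h 1 0 := by
  rw [Matrix.SpecialLinearGroup.coe_mul]; exact (Matrix.two_mul_expl g.1 h.1).1

theorem mul_apply_one_zero (g h : SL(2,ℤ)) : (g * h) 1 0 = g 1 0 * h 0 0 + g 1 1 * h 1 0 := by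
  rw [Matrix.SpecialLinearGroup.coe_mul]; exact (Matrix.two_mul_expl g.1 h.1).2.2.1

theorem inv_apply (g : SL(2,ℤ)) : g⁻¹ 1 0 = - g 1 0 ∧ g⁻¹ 1 1 = g 0 0 ∧ g⁻¹ 0 0 = g 1 1 ∧ g⁻¹ 0 1 = - g 0 1 := by
  rw [Matrix.SpecialLinearGroup.SL2_inv_expl]
  simp

theorem mk_eq_mk_iff (g h : SL(2,ℤ)) :
    (QuotientGroup.mk g : SL(2,ℤ) ⧸ Gamma0 N) = QuotientGroup.mk h ↔
      ((g 0 0 : ℤ) : ZMod N) * ((h 1 0 : ℤ) : ZMod N) = ((g 1 0 : ℤ) : ZMod N) * ((h 0 0 : ℤ) : ZMod N) := by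
  rw [QuotientGroup.eq, Gamma0_mem]
  have : (g⁻¹ * h) 1 0 = g 0 0 * h 1 0 - g 1 0 * h 0 0 := by
    rw [mul_apply_one_zero, (inv_apply g).1, (inv_apply g).2.1]
    ring
  rw [this]
  push_cast
  rw [sub_eq_zero]

theorem S_mul_apply (g : SL(2,ℤ)) : (S * g) 0 0 = - g 1 0 ∧ (S * g) 1 0 = g 0 0 := by
  rw [mul_apply_zero_zero, mul_apply_one_zero]
  simp [ModularGroup.coe_S]

theorem T_mul_apply (g : SL(2,ℤ)) : (T * g) 0 0 = g 0 0 + g 1 0 ∧ (T * g) 1 0 = g 1 0 := by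
  rw [mul_apply_zero_zero, mul_apply_one_zero]
  simp [ModularGroup.coe_T]

theorem det_eq (g : SL(2,ℤ)) : g 0 0 * g 1 1 - g 0 1 * g 1 0 = 1 := by
  have := g.det_coe
  rwa [Matrix.det_fin_two] at this

theorem det_eq_cast (g : SL(2,ℤ)) : ((g 0 0 : ℤ) : ZMod N) * ((g 1 1 : ℤ) : ZMod N) - ((g 0 1 : ℤ) : ZMod N) * ((g 1 0 : ℤ) : ZMod N) = 1 := by
  have := congrArg (Int.cast : ℤ → ZMod N) (det_eq g)
  push_cast at this
  exact this

theorem val_cast [NeZero N] (x : ZMod N) : (((x.val : ℕ) : ℤ) : ZMod N) = x := by simp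

/-- the matrix with first column `(a, 1)`. -/
def colMat (a : ℤ) : SL(2,ℤ) := ⟨!![a, -1; 1, 0], by simp [Matrix.det_fin_two]⟩

@[simp] theorem colMat_zero_zero (a : ℤ) : colMat a 0 0 = a := rfl
@[simp] theorem colMat_one_zero (a : ℤ) : colMat a 1 0 = 1 := rfl

theorem mk_colMat_eq_iff (a b : ℤ) :
    (QuotientGroup.mk (colMat a) : SL(2,ℤ) ⧸ Gamma0 N) = QuotientGroup.mk (colMat b) ↔
      (a : ZMod N) = b := by
  rw [mk_eq_mk_iff]; simp

theorem S_smul_mk_eq_iff (g : SL(2,ℤ)) :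
    S • (QuotientGroup.mk g : SL(2,ℤ) ⧸ Gamma0 N) = QuotientGroup.mk g ↔
      ((g 0 0 : ℤ) : ZMod N) ^ 2 + ((g 1 0 : ℤ) : ZMod N) ^ 2 = 0 := by
  rw [MulAction.Quotient.smul_mk, smul_eq_mul, mk_eq_mk_iff, (S_mul_apply g).1, (S_mul_apply g).2]
  push_cast
  constructor
  · intro h; linear_combination -h
  · intro h; linear_combination -h

theorem ST_smul_mk_eq_iff (g : SL(2,ℤ)) :
    (S * T) • (QuotientGroup.mk g : SL(2,ℤ) ⧸ Gamma0 N) = QuotientGroup.mk g ↔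
      ((g 0 0 : ℤ) : ZMod N) ^ 2 + ((g 0 0 : ℤ) : ZMod N) * ((g 1 0 : ℤ) : ZMod N) + ((g 1 0 : ℤ) : ZMod N) ^ 2 = 0 := by
  rw [MulAction.Quotient.smul_mk, smul_eq_mul, mk_eq_mk_iff, mul_assoc, (S_mul_apply (T * g)).1, (S_mul_apply (T * g)).2,
    (T_mul_apply g).1, (T_mul_apply g).2]
  push_cast
  constructor
  · intro h; linear_combination -h
  · intro h; linear_combination -h

theorem exists_coprime_add_mul (x n m : ℕ) (hm : m ≠ 0)
    (h : ∀ p : ℕ, p.Prime → p ∣ x → p ∣ n → p ∣ m → False) : ∃ k : ℕ, (x + k * n).Coprime m := by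
  let ps : Finset ℕ := {p ∈ m.primeFactors | ¬p ∣ x}
  use ps.prod id
  apply Nat.coprime_of_dvd
  intro p pp hp hpn
  by_cases hpx : p ∣ x
  · have h' := Nat.dvd_sub hp hpx
    rw [add_comm, Nat.add_sub_cancel] at h'
    rcases pp.dvd_mul.mp h' with h' | h'
    · have ⟨q, hq, hq'⟩ := (pp.prime.dvd_finsetProd_iff id).mp h'
      rw [Finset.mem_filter, Nat.mem_primeFactors,
        ← (Nat.prime_dvd_prime_iff_eq pp hq.1.1).mp hq'] at hq
      exact hq.2 hpx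
    · exact h p pp hpx h' hpn
  · have pps : p ∈ ps := Finset.mem_filter.mpr ⟨Nat.mem_primeFactors.mpr ⟨pp, hpn, hm⟩, hpx⟩
    have h' := Nat.dvd_sub hp ((Finset.dvd_prod_of_mem id pps).mul_right n)
    rw [Nat.add_sub_cancel] at h'
    contradiction

theorem exists_SL2_of_isCoprime {a c : ℤ} (h : IsCoprime a c) :
    ∃ g : SL(2,ℤ), g 0 0 = a ∧ g 1 0 = c := by
  obtain ⟨u, v, huv⟩ := h
  refine ⟨⟨!![a, -v; c, u], ?_⟩, rfl, rfl⟩
  rw [Matrix.det_fin_two_of]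
  linear_combination huv

/-- lifting lemma -/
theorem exists_SL2_col (N : ℕ) [NeZero N] (a c : ℤ)
    (h : ∀ p : ℕ, p.Prime → (p : ℤ) ∣ a → (p : ℤ) ∣ c → p ∣ N → False) :
    ∃ g : SL(2,ℤ), (N : ℤ) ∣ g 0 0 - a ∧ (N : ℤ) ∣ g 1 0 - c := by
  have hN : (0 : ℤ) < N := by exact_mod_cast Nat.pos_of_ne_zero (NeZero.ne N)
  -- natural representatives
  obtain ⟨a0, ha0, ha0'⟩ : ∃ a0 : ℕ, a0 ≠ 0 ∧ (N : ℤ) ∣ (a0 : ℤ) - a := by
    refine ⟨(a % N + N).toNat, ?_, ?_⟩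
    · have := Int.emod_nonneg a hN.ne'
      omega
    · have h1 := Int.emod_nonneg a hN.ne'
      rw [Int.toNat_of_nonneg (by omega)]
      have : a % N + N - a = N * (1 - a / N) := by
        have := Int.emod_add_mul_ediv a N
        linear_combination this
      rw [this]; exact dvd_mul_right _ _
  obtain ⟨c0, hc0'⟩ : ∃ c0 : ℕ, (N : ℤ) ∣ (c0 : ℤ) - c := by
    refine ⟨(c % N).toNat, ?_⟩
    have h1 := Int.emod_nonneg c hN.ne'
    rw [Int.toNat_of_nonneg h1]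
    have : c % N - c = N * (- (c / N)) := by
      have := Int.emod_add_mul_ediv c N
      linear_combination this
    rw [this]; exact dvd_mul_right _ _
  obtain ⟨k, hk⟩ := exists_coprime_add_mul c0 N a0 ha0 (by
    intro p pp h1 h2 h3
    have hpN : (p : ℤ) ∣ N := by exact_mod_cast h2
    refine h p pp ?_ ?_ h2
    · have : (p : ℤ) ∣ a0 := by exact_mod_cast h3
      have := dvd_sub this (hpN.trans ha0')
      simpa using this
    · have : (p : ℤ) ∣ c0 := by exact_mod_cast h1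
      have := dvd_sub this (hpN.trans hc0')
      simpa using this)
  have hcop : IsCoprime (a0 : ℤ) ((c0 + k * N : ℕ) : ℤ) := by
    rw [Nat.isCoprime_iff_coprime]; exact hk.symm
  obtain ⟨g, hg0, hg1⟩ := exists_SL2_of_isCoprime hcop
  refine ⟨g, by rw [hg0]; exact ha0', ?_⟩
  rw [hg1]
  push_cast
  have : (c0 : ℤ) + k * N - c = (c0 - c) + N * k := by ring
  rw [this]
  exact dvd_add hc0' (dvd_mul_right _ _)

def sqfInd : ArithmeticFunction ℕ := ⟨fun n => if Squarefree n then 1 else 0, by simp⟩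

theorem sqfInd_apply (n : ℕ) : sqfInd n = if Squarefree n then 1 else 0 := rfl

theorem sqfInd_isMultiplicative : sqfInd.IsMultiplicative := by
  refine ⟨by simp [sqfInd_apply], fun {m n} h => ?_⟩
  simp only [sqfInd_apply, Nat.squarefree_mul h]
  by_cases hm : Squarefree m <;> by_cases hn : Squarefree n <;> simp [hm, hn]

theorem dedekindPsi_eq (N : ℕ) : ModularCurve.dedekindPsi N = (ArithmeticFunction.id * sqfInd) N := by
  rw [ArithmeticFunction.mul_apply, Nat.sum_divisorsAntidiagonal' (f := fun a b => ArithmeticFunction.id a * sqfInd b),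
    ModularCurve.dedekindPsi, Finset.sum_filter]
  refine Finset.sum_congr rfl fun d _ => ?_
  simp [sqfInd_apply]

theorem dedekindPsi_mul {m n : ℕ} (h : m.Coprime n) :
    ModularCurve.dedekindPsi (m * n) = ModularCurve.dedekindPsi m * ModularCurve.dedekindPsi n := by
  simp only [dedekindPsi_eq]
  exact (ArithmeticFunction.isMultiplicative_id.mul sqfInd_isMultiplicative).map_mul_of_coprime h

theorem dedekindPsi_prime_pow {p : ℕ} (hp : p.Prime) (k : ℕ) :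
    ModularCurve.dedekindPsi (p ^ (k + 1)) = p ^ (k + 1) + p ^ k := by
  rw [ModularCurve.dedekindPsi, Finset.sum_filter, Nat.sum_divisors_prime_pow hp,
    Finset.sum_range_succ', Finset.sum_range_succ']
  have : ∀ i ∈ Finset.range k, (if Squarefree (p ^ (i + 1 + 1)) then p ^ (k + 1) / p ^ (i + 1 + 1) else 0) = 0 := by
    intro i _
    rw [if_neg]
    intro h
    have := (Nat.squarefree_pow_iff hp.ne_one (by omega)).1 h
    omega
  rw [Finset.sum_eq_zero this]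
  have h1 : Squarefree (p ^ (0 + 1)) := by simpa using hp.squarefree
  rw [if_pos h1, if_pos (by simp)]
  simp only [zero_add, pow_one, pow_zero, Nat.div_one]
  rw [pow_succ, Nat.mul_div_cancel _ hp.pos]
  ring


theorem mk_eq_mk_iff_dvd {N : ℕ} (g h : SL(2,ℤ)) :
    (QuotientGroup.mk g : SL(2,ℤ) ⧸ Gamma0 N) = QuotientGroup.mk h ↔
      (N : ℤ) ∣ g 0 0 * h 1 0 - g 1 0 * h 0 0 := by
  rw [mk_eq_mk_iff, ← ZMod.intCast_zmod_eq_zero_iff_dvd]
  push_cast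
  rw [sub_eq_zero]

theorem not_prime_dvd_col (g : SL(2,ℤ)) (p : ℕ) (pp : p.Prime) (h0 : (p : ℤ) ∣ g 0 0)
    (h1 : (p : ℤ) ∣ g 1 0) : False := by
  have := det_eq g
  have h : (p : ℤ) ∣ 1 := by
    rw [← this]
    exact dvd_sub (h0.mul_right _) (h1.mul_left _)
  have := Int.eq_one_of_dvd_one (by positivity) h
  have : p = 1 := by exact_mod_cast this
  exact pp.ne_one this

theorem Gamma0_le_of_dvd {M N : ℕ} (h : M ∣ N) : Gamma0 N ≤ Gamma0 M := by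
  intro g hg
  rw [Gamma0_mem, ZMod.intCast_zmod_eq_zero_iff_dvd] at hg ⊢
  exact (Int.natCast_dvd_natCast.2 h).trans hg

theorem index_Gamma0_mul {M N : ℕ} [NeZero M] [NeZero N] (hMN : M.Coprime N) :
    (Gamma0 (M * N)).index = (Gamma0 M).index * (Gamma0 N).index := by
  have : NeZero (M * N) := ⟨mul_ne_zero (NeZero.ne M) (NeZero.ne N)⟩
  rw [Subgroup.index, Subgroup.index, Subgroup.index, ← Nat.card_prod]
  refine Nat.card_congr (Equiv.ofBijective (fun x =>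
    (Subgroup.quotientMapOfLE (Gamma0_le_of_dvd (Dvd.intro _ rfl)) x,
      Subgroup.quotientMapOfLE (Gamma0_le_of_dvd (Dvd.intro_left _ rfl)) x)) ⟨?_, ?_⟩)
  · intro x y hxy
    obtain ⟨g, rfl⟩ := QuotientGroup.mk_surjective x
    obtain ⟨h, rfl⟩ := QuotientGroup.mk_surjective y
    simp only [Subgroup.quotientMapOfLE_apply_mk, Prod.mk.injEq, mk_eq_mk_iff_dvd] at hxy
    rw [mk_eq_mk_iff_dvd]
    push_cast
    exact IsCoprime.mul_dvd (Nat.isCoprime_iff_coprime.2 hMN) hxy.1 hxy.2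
  · rintro ⟨x, y⟩
    obtain ⟨g₁, rfl⟩ := QuotientGroup.mk_surjective x
    obtain ⟨g₂, rfl⟩ := QuotientGroup.mk_surjective y
    obtain ⟨u, v, huv⟩ := Nat.isCoprime_iff_coprime.2 hMN
    -- u * M + v * N = 1
    set a := g₁ 0 0 * (v * N) + g₂ 0 0 * (u * M) with ha
    set c := g₁ 1 0 * (v * N) + g₂ 1 0 * (u * M) with hc
    have ha1 : (M : ℤ) ∣ a - g₁ 0 0 := ⟨(g₂ 0 0 - g₁ 0 0) * u, by rw [ha]; linear_combination (g₁ 0 0) * huv⟩
    have ha2 : (N : ℤ) ∣ a - g₂ 0 0 := ⟨(g₁ 0 0 - g₂ 0 0) * v, by rw [ha]; linear_combination (g₂ 0 0) * huv⟩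
    have hc1 : (M : ℤ) ∣ c - g₁ 1 0 := ⟨(g₂ 1 0 - g₁ 1 0) * u, by rw [hc]; linear_combination (g₁ 1 0) * huv⟩
    have hc2 : (N : ℤ) ∣ c - g₂ 1 0 := ⟨(g₁ 1 0 - g₂ 1 0) * v, by rw [hc]; linear_combination (g₂ 1 0) * huv⟩
    obtain ⟨g, hg0, hg1⟩ := exists_SL2_col (M * N) a c (by
      intro p pp hpa hpc hpMN
      rcases (Nat.Prime.dvd_mul pp).1 hpMN with hp | hp
      · have hp' : (p : ℤ) ∣ M := by exact_mod_cast hp
        refine not_prime_dvd_col g₁ p pp ?_ ?_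
        · simpa using dvd_sub hpa (hp'.trans ha1)
        · simpa using dvd_sub hpc (hp'.trans hc1)
      · have hp' : (p : ℤ) ∣ N := by exact_mod_cast hp
        refine not_prime_dvd_col g₂ p pp ?_ ?_
        · simpa using dvd_sub hpa (hp'.trans ha2)
        · simpa using dvd_sub hpc (hp'.trans hc2))
    push_cast at hg0 hg1
    have hM0 : (M : ℤ) ∣ g 0 0 - g₁ 0 0 := by
      have := dvd_add ((Dvd.intro _ rfl : (M : ℤ) ∣ M * N).trans hg0) ha1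
      simpa using this
    have hM1 : (M : ℤ) ∣ g 1 0 - g₁ 1 0 := by
      have := dvd_add ((Dvd.intro _ rfl : (M : ℤ) ∣ M * N).trans hg1) hc1
      simpa using this
    have hN0 : (N : ℤ) ∣ g 0 0 - g₂ 0 0 := by
      have := dvd_add ((Dvd.intro_left _ rfl : (N : ℤ) ∣ M * N).trans hg0) ha2
      simpa using this
    have hN1 : (N : ℤ) ∣ g 1 0 - g₂ 1 0 := by
      have := dvd_add ((Dvd.intro_left _ rfl : (N : ℤ) ∣ M * N).trans hg1) hc2
      simpa using this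
    refine ⟨QuotientGroup.mk g, ?_⟩
    simp only [Subgroup.quotientMapOfLE_apply_mk, Prod.mk.injEq, mk_eq_mk_iff_dvd]
    constructor
    · have : g 0 0 * g₁ 1 0 - g 1 0 * g₁ 0 0 = (g 0 0 - g₁ 0 0) * g₁ 1 0 - (g 1 0 - g₁ 1 0) * g₁ 0 0 := by ring
      rw [this]
      exact dvd_sub (hM0.mul_right _) (hM1.mul_right _)
    · have : g 0 0 * g₂ 1 0 - g 1 0 * g₂ 0 0 = (g 0 0 - g₂ 0 0) * g₂ 1 0 - (g 1 0 - g₂ 1 0) * g₂ 0 0 := by ring
      rw [this]
      exact dvd_sub (hN0.mul_right _) (hN1.mul_right _)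

theorem dvd_val_sub (n : ℕ) [NeZero n] (z : ℤ) : (n : ℤ) ∣ (((z : ZMod n).val : ℕ) : ℤ) - z := by
  rw [← ZMod.intCast_zmod_eq_zero_iff_dvd]
  push_cast
  rw [ZMod.natCast_val, ZMod.cast_id', id_eq, sub_self]

theorem eq_of_dvd_val_sub {n : ℕ} [NeZero n] {x y : ZMod n} (h : (n : ℤ) ∣ ((x.val : ℕ) : ℤ) - ((y.val : ℕ) : ℤ)) :
    x = y := by
  rw [← ZMod.intCast_zmod_eq_zero_iff_dvd] at h
  push_cast at h
  rw [ZMod.natCast_val, ZMod.cast_id', id_eq, ZMod.natCast_val, ZMod.cast_id', id_eq, sub_eq_zero] at h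
  exact h

/-- the matrix with first column `(1, c)`. -/
def lowMat (c : ℤ) : SL(2,ℤ) := ⟨!![1, 0; c, 1], by simp [Matrix.det_fin_two]⟩

@[simp] theorem lowMat_zero_zero (c : ℤ) : lowMat c 0 0 = 1 := rfl
@[simp] theorem lowMat_one_zero (c : ℤ) : lowMat c 1 0 = c := rfl

theorem index_Gamma0_prime_pow {p : ℕ} (hp : p.Prime) (k : ℕ) :
    (Gamma0 (p ^ (k + 1))).index = p ^ (k + 1) + p ^ k := by
  have : NeZero (p ^ (k + 1)) := ⟨pow_ne_zero _ hp.ne_zero⟩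
  have : NeZero (p ^ k) := ⟨pow_ne_zero _ hp.ne_zero⟩
  have hp1 : ¬ (p : ℤ) ∣ 1 := by
    intro h
    have := Int.eq_one_of_dvd_one (by positivity) h
    exact hp.ne_one (by exact_mod_cast this)
  have hpq : (p : ℤ) ∣ ((p ^ (k + 1) : ℕ) : ℤ) := by
    push_cast; exact dvd_pow_self _ (by omega)
  have hq : ((p ^ (k + 1) : ℕ) : ℤ) = p * ((p ^ k : ℕ) : ℤ) := by push_cast; ring
  have hp0 : (p : ℤ) ≠ 0 := by exact_mod_cast hp.ne_zero
  conv_rhs => rw [← Nat.card_zmod (p ^ (k + 1)), ← Nat.card_zmod (p ^ k), ← Nat.card_sum]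
  rw [Subgroup.index]
  symm
  refine Nat.card_congr (Equiv.ofBijective (fun x : ZMod (p ^ (k + 1)) ⊕ ZMod (p ^ k) =>
    (Sum.elim (fun a => QuotientGroup.mk (colMat (a.val : ℤ)))
      (fun c => QuotientGroup.mk (lowMat (p * (c.val : ℤ)))) x : SL(2,ℤ) ⧸ Gamma0 (p ^ (k + 1)))) ⟨?_, ?_⟩)
  · rintro (a | c) (a' | c') h
    · simp only [Sum.elim_inl, mk_eq_mk_iff_dvd, colMat_zero_zero, colMat_one_zero] at h
      congr 1
      apply eq_of_dvd_val_sub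
      simpa using h
    · exfalso
      simp only [Sum.elim_inl, Sum.elim_inr, mk_eq_mk_iff_dvd, colMat_zero_zero, colMat_one_zero,
        lowMat_zero_zero, lowMat_one_zero] at h
      apply hp1
      have h2 := hpq.trans h
      have h3 : (p : ℤ) ∣ (a.val : ℤ) * (p * (c'.val : ℤ)) := ⟨a.val * c'.val, by ring⟩
      have := dvd_sub h3 h2
      simpa using this
    · exfalso
      simp only [Sum.elim_inl, Sum.elim_inr, mk_eq_mk_iff_dvd, colMat_zero_zero, colMat_one_zero,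
        lowMat_zero_zero, lowMat_one_zero] at h
      apply hp1
      have h2 := hpq.trans h
      have h3 : (p : ℤ) ∣ (p * (c.val : ℤ)) * (a'.val : ℤ) := ⟨c.val * a'.val, by ring⟩
      have := dvd_add h2 h3
      simpa using this
    · simp only [Sum.elim_inr, mk_eq_mk_iff_dvd, lowMat_zero_zero, lowMat_one_zero] at h
      congr 1
      symm
      apply eq_of_dvd_val_sub
      rw [hq] at h
      have : (1 : ℤ) * (p * (c'.val : ℤ)) - p * (c.val : ℤ) * 1 = p * ((c'.val : ℤ) - c.val) := by ring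
      rw [this] at h
      exact (mul_dvd_mul_iff_left hp0).1 h
  · intro x
    obtain ⟨g, rfl⟩ := QuotientGroup.mk_surjective x
    by_cases hc : (p : ℤ) ∣ g 1 0
    · obtain ⟨c0, hc0⟩ := hc
      have ha : ¬ (p : ℤ) ∣ g 0 0 := fun h => not_prime_dvd_col g p hp h ⟨c0, hc0⟩
      have hcop : IsCoprime (g 0 0) ((p ^ k : ℕ) : ℤ) := by
        push_cast
        apply IsCoprime.pow_right
        exact ((Nat.prime_iff_prime_int.1 hp).coprime_iff_not_dvd.2 ha).symm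
      obtain ⟨u, v, huv⟩ := hcop
      refine ⟨Sum.inr ((c0 * u : ℤ) : ZMod (p ^ k)), ?_⟩
      simp only [Sum.elim_inr, mk_eq_mk_iff_dvd, lowMat_zero_zero, lowMat_one_zero]
      obtain ⟨w, hw⟩ := dvd_val_sub (p ^ k) (c0 * u)
      rw [hq, hc0]
      refine ⟨c0 * v - w * g 0 0, ?_⟩
      have : ((((c0 * u : ℤ) : ZMod (p ^ k)).val : ℕ) : ℤ) = c0 * u + ((p ^ k : ℕ) : ℤ) * w := by
        linear_combination hw
      rw [this]
      linear_combination (- p * c0) * huv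
    · have hcop : IsCoprime (g 1 0) ((p ^ (k + 1) : ℕ) : ℤ) := by
        push_cast
        apply IsCoprime.pow_right
        exact ((Nat.prime_iff_prime_int.1 hp).coprime_iff_not_dvd.2 hc).symm
      obtain ⟨u, v, huv⟩ := hcop
      refine ⟨Sum.inl ((g 0 0 * u : ℤ) : ZMod (p ^ (k + 1))), ?_⟩
      simp only [Sum.elim_inl, mk_eq_mk_iff_dvd, colMat_zero_zero, colMat_one_zero]
      obtain ⟨w, hw⟩ := dvd_val_sub (p ^ (k + 1)) (g 0 0 * u)
      refine ⟨w * g 1 0 - g 0 0 * v, ?_⟩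
      have : ((((g 0 0 * u : ℤ) : ZMod (p ^ (k + 1))).val : ℕ) : ℤ) = g 0 0 * u + ((p ^ (k + 1) : ℕ) : ℤ) * w := by
        linear_combination hw
      rw [this]
      linear_combination (g 0 0) * huv

theorem index_Gamma0 (N : ℕ) [NeZero N] : (Gamma0 N).index = ModularCurve.dedekindPsi N := by
  have key : ∀ N : ℕ, N ≠ 0 → (Gamma0 N).index = ModularCurve.dedekindPsi N := by
    intro N
    induction N using Nat.recOnPosPrimePosCoprime with
    | prime_pow p n hp hn =>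
      intro _
      obtain ⟨k, rfl⟩ : ∃ k, n = k + 1 := ⟨n - 1, by omega⟩
      rw [index_Gamma0_prime_pow hp, dedekindPsi_prime_pow hp]
    | zero => intro h; exact absurd rfl h
    | one =>
      intro _
      rw [ModularCurve.dedekindPsi_one]
      have : Gamma0 1 = ⊤ := by
        ext g
        simp [Gamma0_mem, eq_iff_true_of_subsingleton]
      rw [this, Subgroup.index_top]
    | coprime a b ha hb hab iha ihb =>
      intro _
      have : NeZero a := ⟨by omega⟩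
      have : NeZero b := ⟨by omega⟩
      rw [index_Gamma0_mul hab, dedekindPsi_mul hab, iha (by omega), ihb (by omega)]
  exact key N (NeZero.ne N)

/-! ### Orbits of `T` -/

theorem T_zpow_mul_apply (n : ℤ) (g : SL(2,ℤ)) :
    (T ^ n * g) 0 0 = g 0 0 + n * g 1 0 ∧ (T ^ n * g) 1 0 = g 1 0 := by
  rw [mul_apply_zero_zero, mul_apply_one_zero]
  simp [ModularGroup.coe_T_zpow]

theorem orbit_mk_iff {N : ℕ} (g h : SL(2,ℤ)) :
    (Quotient.mk'' (QuotientGroup.mk g : SL(2,ℤ) ⧸ Gamma0 N) :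
      MulAction.orbitRel.Quotient (Subgroup.zpowers T) (SL(2,ℤ) ⧸ Gamma0 N)) =
        Quotient.mk'' (QuotientGroup.mk h : SL(2,ℤ) ⧸ Gamma0 N) ↔
      ∃ n : ℤ, (N : ℤ) ∣ (h 0 0 + n * h 1 0) * g 1 0 - h 1 0 * g 0 0 := by
  rw [Quotient.eq'', MulAction.orbitRel_apply, MulAction.mem_orbit_iff]
  constructor
  · rintro ⟨⟨t, ht⟩, hh⟩
    obtain ⟨n, rfl⟩ := Subgroup.mem_zpowers_iff.1 ht
    refine ⟨n, ?_⟩
    have hh' : (T ^ n) • (QuotientGroup.mk h : SL(2,ℤ) ⧸ Gamma0 N) = QuotientGroup.mk g := hh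
    rw [MulAction.Quotient.smul_mk, smul_eq_mul, mk_eq_mk_iff_dvd,
      (T_zpow_mul_apply n h).1, (T_zpow_mul_apply n h).2] at hh'
    exact hh'
  · rintro ⟨n, hn⟩
    refine ⟨⟨T ^ n, Subgroup.zpow_mem_zpowers T n⟩, ?_⟩
    show (T ^ n) • (QuotientGroup.mk h : SL(2,ℤ) ⧸ Gamma0 N) = QuotientGroup.mk g
    rw [MulAction.Quotient.smul_mk, smul_eq_mul, mk_eq_mk_iff_dvd,
      (T_zpow_mul_apply n h).1, (T_zpow_mul_apply n h).2]
    exact hn

/-- solving the congruence -/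
theorem exists_of_rel {d M e a₁ a₂ c₁ c₂ : ℤ} (h1 : IsCoprime c₁ M) (h2 : IsCoprime c₂ M)
    (he : ∃ s t, e = d * s + M * t) (hB : e ∣ a₁ * c₂ - a₂ * c₁) :
    ∃ n : ℤ, d * M ∣ (a₁ + n * (d * c₁)) * (d * c₂) - (d * c₁) * a₂ := by
  obtain ⟨u1, v1, h1⟩ := h1
  obtain ⟨u2, v2, h2⟩ := h2
  obtain ⟨s, t, he⟩ := he
  obtain ⟨k, hk⟩ := hB
  refine ⟨-k * s * u1 * u2, k * (t + e * (v1 + v2 - v1 * v2 * M) - M * t * (v1 + v2 - v1 * v2 * M)), ?_⟩
  have e1 : u1 * c₁ = 1 - v1 * M := by linear_combination h1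
  have e2 : u2 * c₂ = 1 - v2 * M := by linear_combination h2
  have e3 : d * s = e - M * t := by linear_combination -he
  have : (a₁ + -k * s * u1 * u2 * (d * c₁)) * (d * c₂) - d * c₁ * a₂
      = d * ((a₁ * c₂ - a₂ * c₁) - k * (d * s) * (u1 * c₁) * (u2 * c₂)) := by ring
  rw [this, e1, e2, e3, hk]
  ring

theorem gcd_dvd_of_rel {N : ℕ} {a₁ c₁ a₂ c₂ n : ℤ} (h1 : IsCoprime a₁ c₁)
    (h : (N : ℤ) ∣ (a₁ + n * c₁) * c₂ - c₁ * a₂) : Int.gcd c₁ N ∣ Int.gcd c₂ N := by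
  have hd1 : ((Int.gcd c₁ N : ℕ) : ℤ) ∣ c₁ := Int.gcd_dvd_left _ _
  have hd2 : ((Int.gcd c₁ N : ℕ) : ℤ) ∣ N := Int.gcd_dvd_right _ _
  have h3 : ((Int.gcd c₁ N : ℕ) : ℤ) ∣ a₁ * c₂ := by
    have h4 := hd2.trans h
    have h5 : ((Int.gcd c₁ N : ℕ) : ℤ) ∣ c₁ * (a₂ - n * c₂) := hd1.mul_right _
    have := dvd_add h4 h5
    have e : (a₁ + n * c₁) * c₂ - c₁ * a₂ + c₁ * (a₂ - n * c₂) = a₁ * c₂ := by ring
    rwa [e] at this
  have hcop : IsCoprime ((Int.gcd c₁ N : ℕ) : ℤ) a₁ := (h1.of_isCoprime_of_dvd_right hd1).symm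
  have h6 : ((Int.gcd c₁ N : ℕ) : ℤ) ∣ c₂ := hcop.dvd_of_dvd_mul_left h3
  exact Int.natCast_dvd_natCast.1 (Int.dvd_coe_gcd h6 hd2)

theorem gcd_eq_of_rel {N : ℕ} {a₁ c₁ a₂ c₂ n : ℤ} (h1 : IsCoprime a₁ c₁) (h2 : IsCoprime a₂ c₂)
    (h : (N : ℤ) ∣ (a₁ + n * c₁) * c₂ - c₁ * a₂) : Int.gcd c₁ N = Int.gcd c₂ N := by
  apply Nat.dvd_antisymm (gcd_dvd_of_rel h1 h)
  apply gcd_dvd_of_rel (n := -n) h2
  have e : (a₂ + -n * c₂) * c₁ - c₂ * a₁ = -((a₁ + n * c₁) * c₂ - c₁ * a₂) := by ring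
  rw [e]
  exact (dvd_neg).2 h

theorem dvd_of_rel {d M e a₁ a₂ c₁ c₂ n : ℤ} (hd : d ≠ 0) (he1 : e ∣ d) (he2 : e ∣ M)
    (h : d * M ∣ (a₁ + n * (d * c₁)) * (d * c₂) - (d * c₁) * a₂) : e ∣ a₁ * c₂ - a₂ * c₁ := by
  have e1 : (a₁ + n * (d * c₁)) * (d * c₂) - (d * c₁) * a₂ = d * ((a₁ * c₂ - a₂ * c₁) + n * d * c₁ * c₂) := by ring
  rw [e1] at h
  have h2 := (mul_dvd_mul_iff_left hd).1 h
  have h3 := he2.trans h2
  have h4 : e ∣ n * d * c₁ * c₂ := ((he1.mul_left n).mul_right _).mul_right _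
  have := dvd_sub h3 h4
  simpa using this

theorem isCoprime_col (g : SL(2,ℤ)) : IsCoprime (g 0 0) (g 1 0) :=
  ⟨g 1 1, - g 0 1, by linear_combination det_eq g⟩

theorem exists_rep {d e y : ℕ} (hd : d ≠ 0) (hy : e.Coprime y) :
    ∃ g : SL(2,ℤ), g 1 0 = d ∧ (e : ℤ) ∣ g 0 0 - y := by
  obtain ⟨k, hk⟩ := exists_coprime_add_mul y e d hd (fun p pp h1 h2 _ =>
    pp.one_lt.ne' (Nat.eq_one_of_dvd_coprimes hy h2 h1))
  obtain ⟨g, h0, h1⟩ := exists_SL2_of_isCoprime (Nat.isCoprime_iff_coprime.2 hk)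
  refine ⟨g, h1, ?_⟩
  rw [h0]
  push_cast
  exact ⟨k, by ring⟩

/-- `gcd (d, N / d)` -/
def cuspE (N d : ℕ) : ℕ := Nat.gcd d (N / d)

/-- index set for the cusps -/
def cuspIndex (N : ℕ) : Finset (Σ _ : ℕ, ℕ) :=
  N.divisors.sigma (fun d => (Finset.range (cuspE N d)).filter (fun y => (cuspE N d).Coprime y))

theorem card_cuspIndex (N : ℕ) : (cuspIndex N).card = ModularCurve.cuspCount N := by
  rw [cuspIndex, Finset.card_sigma, ModularCurve.cuspCount]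
  rfl

theorem mem_cuspIndex {N : ℕ} {i : Σ _ : ℕ, ℕ} :
    i ∈ cuspIndex N ↔ (i.1 ∣ N ∧ N ≠ 0) ∧ i.2 < cuspE N i.1 ∧ (cuspE N i.1).Coprime i.2 := by
  rw [cuspIndex, Finset.mem_sigma, Nat.mem_divisors, Finset.mem_filter, Finset.mem_range]

theorem exists_rep_of_mem {N : ℕ} (i : cuspIndex N) :
    ∃ g : SL(2,ℤ), g 1 0 = (i.1.1 : ℤ) ∧ ((cuspE N i.1.1 : ℕ) : ℤ) ∣ g 0 0 - (i.1.2 : ℤ) := by
  have h := mem_cuspIndex.1 i.2
  exact exists_rep (fun h0 => h.1.2 (by have := h.1.1; rw [h0] at this; exact Nat.eq_zero_of_zero_dvd this)) h.2.2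

/-- representative matrices of the cusps -/
noncomputable def cuspRep {N : ℕ} (i : cuspIndex N) : SL(2,ℤ) := (exists_rep_of_mem i).choose

theorem cuspRep_one_zero {N : ℕ} (i : cuspIndex N) : cuspRep i 1 0 = (i.1.1 : ℤ) :=
  (exists_rep_of_mem i).choose_spec.1

theorem cuspRep_zero_zero {N : ℕ} (i : cuspIndex N) :
    ((cuspE N i.1.1 : ℕ) : ℤ) ∣ cuspRep i 0 0 - (i.1.2 : ℤ) :=
  (exists_rep_of_mem i).choose_spec.2

theorem card_orbits_T (N : ℕ) [NeZero N] :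
    Nat.card (MulAction.orbitRel.Quotient (Subgroup.zpowers T) (SL(2,ℤ) ⧸ Gamma0 N)) =
      ModularCurve.cuspCount N := by
  rw [← card_cuspIndex, ← Fintype.card_coe, ← Nat.card_eq_fintype_card]
  symm
  refine Nat.card_congr (Equiv.ofBijective (fun i : cuspIndex N =>
    (Quotient.mk'' (QuotientGroup.mk (cuspRep i) : SL(2,ℤ) ⧸ Gamma0 N) :
      MulAction.orbitRel.Quotient (Subgroup.zpowers T) (SL(2,ℤ) ⧸ Gamma0 N))) ⟨?_, ?_⟩)
  · rintro ⟨⟨d₁, y₁⟩, h₁⟩ ⟨⟨d₂, y₂⟩, h₂⟩ h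
    obtain ⟨n, hn⟩ := (orbit_mk_iff _ _).1 h
    have m₁ := mem_cuspIndex.1 h₁
    have m₂ := mem_cuspIndex.1 h₂
    have r₁ := cuspRep_one_zero ⟨⟨d₁, y₁⟩, h₁⟩
    have r₂ := cuspRep_one_zero ⟨⟨d₂, y₂⟩, h₂⟩
    have s₁ := cuspRep_zero_zero ⟨⟨d₁, y₁⟩, h₁⟩
    have s₂ := cuspRep_zero_zero ⟨⟨d₂, y₂⟩, h₂⟩
    simp only at m₁ m₂ r₁ r₂ s₁ s₂
    have hg := gcd_eq_of_rel (isCoprime_col _) (isCoprime_col _) hn
    rw [r₁, r₂, Int.gcd_natCast_natCast, Int.gcd_natCast_natCast, Nat.gcd_eq_left m₁.1.1,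
      Nat.gcd_eq_left m₂.1.1] at hg
    subst hg
    have hd0 : d₂ ≠ 0 := fun h0 => m₁.1.2 (by
      have := m₁.1.1; rw [h0] at this; exact Nat.eq_zero_of_zero_dvd this)
    have hNd : (N : ℤ) = (d₂ : ℤ) * ((N / d₂ : ℕ) : ℤ) := by
      exact_mod_cast (Nat.mul_div_cancel' m₁.1.1).symm
    rw [r₁, r₂, hNd] at hn
    have hn' : (d₂ : ℤ) * ((N / d₂ : ℕ) : ℤ) ∣
        (cuspRep ⟨⟨d₂, y₂⟩, h₂⟩ 0 0 + n * ((d₂ : ℤ) * 1)) * ((d₂ : ℤ) * 1) -
          ((d₂ : ℤ) * 1) * cuspRep ⟨⟨d₂, y₁⟩, h₁⟩ 0 0 := by simpa using hn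
    have hk := dvd_of_rel (e := ((cuspE N d₂ : ℕ) : ℤ)) (by exact_mod_cast hd0)
      (by exact_mod_cast Nat.gcd_dvd_left _ _) (by exact_mod_cast Nat.gcd_dvd_right _ _) hn'
    have hy : ((cuspE N d₂ : ℕ) : ℤ) ∣ (y₂ : ℤ) - y₁ := by
      have := dvd_add (dvd_sub hk s₂) s₁
      have e : cuspRep ⟨⟨d₂, y₂⟩, h₂⟩ 0 0 * 1 - cuspRep ⟨⟨d₂, y₁⟩, h₁⟩ 0 0 * 1 -
          (cuspRep ⟨⟨d₂, y₂⟩, h₂⟩ 0 0 - (y₂ : ℤ)) + (cuspRep ⟨⟨d₂, y₁⟩, h₁⟩ 0 0 - (y₁ : ℤ)) = y₂ - y₁ := by ring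
      rwa [e] at this
    have : y₁ = y₂ := by
      have hmod : y₁ ≡ y₂ [MOD cuspE N d₂] := (Nat.modEq_iff_dvd).2 hy
      exact Nat.ModEq.eq_of_lt_of_lt hmod m₁.2.1 m₂.2.1
    subst this
    rfl
  · intro x
    obtain ⟨x, rfl⟩ := Quotient.mk''_surjective x
    obtain ⟨g, rfl⟩ := QuotientGroup.mk_surjective x
    have hN0 : N ≠ 0 := NeZero.ne N
    set d := Int.gcd (g 1 0) N with hd
    have hdN : d ∣ N := by
      have : (d : ℤ) ∣ (N : ℤ) := Int.gcd_dvd_right _ _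
      exact_mod_cast this
    have hdpos : 0 < d := Int.gcd_pos_of_ne_zero_right _ (by exact_mod_cast hN0)
    have hdc : (d : ℤ) ∣ g 1 0 := Int.gcd_dvd_left _ _
    obtain ⟨c', hc'⟩ := hdc
    have hNd : (N : ℤ) = (d : ℤ) * ((N / d : ℕ) : ℤ) := by
      exact_mod_cast (Nat.mul_div_cancel' hdN).symm
    have hd0 : (d : ℤ) ≠ 0 := by exact_mod_cast hdpos.ne'
    have hcop : IsCoprime c' ((N / d : ℕ) : ℤ) := by
      have h1 := Int.gcd_div_gcd_div_gcd (i := g 1 0) (j := (N : ℤ)) hdpos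
      rw [← hd] at h1
      have e1 : g 1 0 / (d : ℤ) = c' := by rw [hc']; exact Int.mul_ediv_cancel_left _ hd0
      have e2 : (N : ℤ) / (d : ℤ) = ((N / d : ℕ) : ℤ) := by
        rw [hNd]; rw [Int.mul_ediv_cancel_left _ hd0]
      rw [e1, e2] at h1
      exact Int.isCoprime_iff_gcd_eq_one.2 h1
    set e := cuspE N d with he
    have hed : (e : ℤ) ∣ d := by exact_mod_cast Nat.gcd_dvd_left _ _
    have heM : (e : ℤ) ∣ ((N / d : ℕ) : ℤ) := by exact_mod_cast Nat.gcd_dvd_right _ _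
    have hepos : 0 < e := Nat.gcd_pos_of_pos_left _ hdpos
    have hcope : IsCoprime c' (e : ℤ) := hcop.of_isCoprime_of_dvd_right heM
    obtain ⟨u, v, huv⟩ := hcope
    have hae : IsCoprime (g 0 0) (e : ℤ) :=
      (isCoprime_col g).of_isCoprime_of_dvd_right (hed.trans ⟨c', hc'⟩)
    have hue : IsCoprime u (e : ℤ) := ⟨c', v, by linear_combination huv⟩
    have haue : IsCoprime (g 0 0 * u) (e : ℤ) := hae.mul_left hue
    set y := (g 0 0 * u % e).toNat with hy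
    have hynn : 0 ≤ g 0 0 * u % e := Int.emod_nonneg _ (by exact_mod_cast hepos.ne')
    have hyc : (y : ℤ) = g 0 0 * u % e := Int.toNat_of_nonneg hynn
    have hylt : y < e := by
      have := Int.emod_lt_of_pos (g 0 0 * u) (show (0 : ℤ) < e by exact_mod_cast hepos)
      rw [← hyc] at this
      exact_mod_cast this
    have hydvd : (e : ℤ) ∣ g 0 0 * u - y := by
      rw [hyc]; exact Int.dvd_self_sub_emod
    have hycop : e.Coprime y := by
      rw [← Nat.isCoprime_iff_coprime]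
      obtain ⟨w, hw⟩ := hydvd
      have : (y : ℤ) = g 0 0 * u + (e : ℤ) * (-w) := by linear_combination -hw
      rw [this]
      exact (IsCoprime.add_mul_left_left haue (-w)).symm
    have hmem : (⟨d, y⟩ : Σ _ : ℕ, ℕ) ∈ cuspIndex N := mem_cuspIndex.2 ⟨⟨hdN, hN0⟩, hylt, hycop⟩
    refine ⟨⟨⟨d, y⟩, hmem⟩, ?_⟩
    rw [orbit_mk_iff]
    have r := cuspRep_one_zero ⟨⟨d, y⟩, hmem⟩
    have s := cuspRep_zero_zero ⟨⟨d, y⟩, hmem⟩
    simp only at r s
    rw [r]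
    have hB : (e : ℤ) ∣ g 0 0 * 1 - cuspRep ⟨⟨d, y⟩, hmem⟩ 0 0 * c' := by
      obtain ⟨w1, hw1⟩ := s
      obtain ⟨w2, hw2⟩ := hydvd
      refine ⟨g 0 0 * v - w1 * c' + w2 * c', ?_⟩
      linear_combination (- c') * hw1 + c' * hw2 - (g 0 0) * huv
    obtain ⟨n, hn⟩ := exists_of_rel (d := (d : ℤ)) (M := ((N / d : ℕ) : ℤ)) (e := (e : ℤ))
      (a₁ := g 0 0) (a₂ := cuspRep ⟨⟨d, y⟩, hmem⟩ 0 0) (c₁ := c') (c₂ := 1) hcop isCoprime_one_left
      ⟨_, _, Nat.gcd_eq_gcd_ab d (N / d)⟩ hB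
    refine ⟨n, ?_⟩
    rw [hNd, hc']
    simpa using hn

theorem card_fixedBy_S (N : ℕ) [NeZero N] :
    Nat.card (MulAction.fixedBy (SL(2,ℤ) ⧸ Gamma0 N) S) = ModularCurve.nuTwo N := by
  unfold ModularCurve.nuTwo
  symm
  refine Nat.card_congr (Equiv.ofBijective
    (fun u : {x : ZMod N // x ^ 2 + 1 = 0} =>
      (⟨QuotientGroup.mk (colMat (u.1.val : ℤ)), ?_⟩ : MulAction.fixedBy (SL(2,ℤ) ⧸ Gamma0 N) S)) ⟨?_, ?_⟩)
  · rw [MulAction.mem_fixedBy, S_smul_mk_eq_iff]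
    simpa using u.2
  · intro u v h
    have h' := (mk_colMat_eq_iff _ _).1 (congrArg Subtype.val h)
    apply Subtype.ext
    simpa using h'
  · rintro ⟨x, hx⟩
    obtain ⟨g, rfl⟩ := QuotientGroup.mk_surjective x
    rw [MulAction.mem_fixedBy, S_smul_mk_eq_iff] at hx
    have hd := det_eq_cast (N := N) g
    set a := ((g 0 0 : ℤ) : ZMod N)
    set b := ((g 0 1 : ℤ) : ZMod N)
    set c := ((g 1 0 : ℤ) : ZMod N)
    set d := ((g 1 1 : ℤ) : ZMod N)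
    set i := b ^ 2 * c - c * d ^ 2 - 2 * a * b * d with hi
    have hci : c * i = 1 := by
      have : (a * d - b * c) ^ 2 = 1 := by rw [hd]; ring
      linear_combination this - d ^ 2 * hx
    refine ⟨⟨a * i, ?_⟩, ?_⟩
    · linear_combination i ^ 2 * hx - (c * i + 1) * hci
    · apply Subtype.ext
      show (QuotientGroup.mk (colMat ((a * i).val : ℤ)) : SL(2,ℤ) ⧸ Gamma0 N) = QuotientGroup.mk g
      rw [mk_eq_mk_iff]
      rw [colMat_zero_zero, colMat_one_zero, val_cast, Int.cast_one, one_mul]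
      show a * i * c = a
      linear_combination a * hci

theorem card_fixedBy_ST (N : ℕ) [NeZero N] :
    Nat.card (MulAction.fixedBy (SL(2,ℤ) ⧸ Gamma0 N) (S * T)) = ModularCurve.nuThree N := by
  unfold ModularCurve.nuThree
  symm
  refine Nat.card_congr (Equiv.ofBijective
    (fun u : {x : ZMod N // x ^ 2 + x + 1 = 0} =>
      (⟨QuotientGroup.mk (colMat (u.1.val : ℤ)), ?_⟩ : MulAction.fixedBy (SL(2,ℤ) ⧸ Gamma0 N) (S * T))) ⟨?_, ?_⟩)
  · rw [MulAction.mem_fixedBy, ST_smul_mk_eq_iff]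
    simpa using u.2
  · intro u v h
    have h' := (mk_colMat_eq_iff _ _).1 (congrArg Subtype.val h)
    apply Subtype.ext
    simpa using h'
  · rintro ⟨x, hx⟩
    obtain ⟨g, rfl⟩ := QuotientGroup.mk_surjective x
    rw [MulAction.mem_fixedBy, ST_smul_mk_eq_iff] at hx
    have hd := det_eq_cast (N := N) g
    set a := ((g 0 0 : ℤ) : ZMod N)
    set b := ((g 0 1 : ℤ) : ZMod N)
    set c := ((g 1 0 : ℤ) : ZMod N)
    set d := ((g 1 1 : ℤ) : ZMod N)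
    set i := b ^ 2 * c - (a + c) * d ^ 2 - 2 * a * b * d with hi
    have hci : c * i = 1 := by
      have : (a * d - b * c) ^ 2 = 1 := by rw [hd]; ring
      linear_combination this - d ^ 2 * hx
    refine ⟨⟨a * i, ?_⟩, ?_⟩
    · linear_combination i ^ 2 * hx - (c * i + 1 + a * i) * hci
    · apply Subtype.ext
      show (QuotientGroup.mk (colMat ((a * i).val : ℤ)) : SL(2,ℤ) ⧸ Gamma0 N) = QuotientGroup.mk g
      rw [mk_eq_mk_iff]
      rw [colMat_zero_zero, colMat_one_zero, val_cast, Int.cast_one, one_mul]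
      show a * i * c = a
      linear_combination a * hci

end Fermat.Agent.Lib.Gamma0Cosets
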