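import Mathlib
import Fermat.Prelude.Def_EllipticCurve_FrobeniusTrace

set_option autoImplicit false

namespace Fermat.Agent.Lib.FrobeniusVal

open Polynomial

variable {L : Type*} [Field L]

theorem integral_mem (A : ValuationSubring L) {b : L} (hb : IsIntegral ℤ b) : b ∈ A := by
  have h1 : IsIntegral A b := hb.tower_top
  obtain ⟨y, hy⟩ := IsIntegrallyClosed.algebraMap_eq_of_integral (R := A) (K := L) h1
  rw [← hy]
  exact y.2

theorem add_mem_nonunits (A : ValuationSubring L) {a b : L} (ha : a ∈ A.nonunits)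
    (hb : b ∈ A.nonunits) : a + b ∈ A.nonunits := by
  rw [ValuationSubring.mem_nonunits_iff] at *
  exact Valuation.map_add_lt _ ha hb

theorem sub_mem_nonunits (A : ValuationSubring L) {a b : L} (ha : a ∈ A.nonunits)
    (hb : b ∈ A.nonunits) : a - b ∈ A.nonunits := by
  rw [ValuationSubring.mem_nonunits_iff] at *
  exact Valuation.map_sub_lt _ ha hb

theorem mul_mem_nonunits (A : ValuationSubring L) {a b : L} (ha : a ∈ A.nonunits)
    (hb : b ∈ A) : a * b ∈ A.nonunits := by
  rw [ValuationSubring.mem_nonunits_iff] at *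
  rw [← ValuationSubring.valuation_le_one_iff] at hb
  rw [map_mul]
  exact mul_lt_one_of_lt_of_le ha hb

theorem exists_mul_mem_aux (A : ValuationSubring L) :
    ∀ (n : ℕ) (p : (integralClosure ℤ L)[X]), p.natDegree ≤ n →
    ∀ x ∈ A, aeval x p = 0 → (∃ i, ((p.coeff i : integralClosure ℤ L) : L) ∉ A.nonunits) →
    ∃ y : L, IsIntegral ℤ y ∧ y ∉ A.nonunits ∧ IsIntegral ℤ (x * y) := by
  intro n
  induction n with
  | zero =>
    intro p hp x hx h0 ⟨i, hi⟩
    exfalso
    rw [Polynomial.eq_C_of_natDegree_le_zero hp] at h0 hi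
    simp only [aeval_C] at h0
    have h1 : p.coeff 0 = 0 := by
      apply Subtype.ext
      simpa using h0
    apply hi
    rw [h1]
    simp
  | succ n ih =>
    intro p hp x hx h0 ⟨i, hi⟩
    by_cases hdeg : p.natDegree ≤ n
    · exact ih p hdeg x hx h0 ⟨i, hi⟩
    have hdeg' : p.natDegree = n + 1 := by omega
    have hc : IsIntegral ℤ ((p.leadingCoeff : L) * x) := by
      have h1 : IsIntegral (integralClosure ℤ L) (p.leadingCoeff • x) :=
        isIntegral_leadingCoeff_smul p x h0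
      have h2 : IsIntegral ℤ (p.leadingCoeff • x) := isIntegral_trans _ h1
      exact h2
    by_cases hb : (p.leadingCoeff : L) ∈ A.nonunits
    · have hcn : (p.leadingCoeff : L) * x ∈ A.nonunits := mul_mem_nonunits A hb hx
      let c : integralClosure ℤ L := ⟨(p.leadingCoeff : L) * x, hc⟩
      let p₁ : (integralClosure ℤ L)[X] := p.eraseLead + C c * X ^ n
      have hp₁deg : p₁.natDegree ≤ n := by
        refine (natDegree_add_le _ _).trans (max_le ?_ (natDegree_C_mul_X_pow_le _ _))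
        have := eraseLead_natDegree_le p
        omega
      have hp₁eval : aeval x p₁ = 0 := by
        have h1 : aeval x p = aeval x p.eraseLead + (p.leadingCoeff : L) * x ^ (n + 1) := by
          conv_lhs => rw [← eraseLead_add_C_mul_X_pow p, hdeg']
          simp [aeval_C]
        have h2 : aeval x p₁ = aeval x p.eraseLead + ((p.leadingCoeff : L) * x) * x ^ n := by
          simp only [p₁, map_add, map_mul, aeval_C, map_pow, aeval_X]
          rfl
        rw [h2, ← h0, h1]
        ring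
      have hi' : i ≠ p.natDegree := by
        rintro rfl
        exact hi hb
      refine ih p₁ hp₁deg x hx hp₁eval ⟨i, ?_⟩
      have h3 : ((p₁.coeff i : integralClosure ℤ L) : L)
          = (p.coeff i : L) + if i = n then (p.leadingCoeff : L) * x else 0 := by
        simp only [p₁, coeff_add, coeff_C_mul, coeff_X_pow, eraseLead_coeff_of_ne _ hi']
        split_ifs <;> simp [c]
      rw [h3]
      intro hmem
      apply hi
      split_ifs at hmem with hin
      · have := sub_mem_nonunits A hmem hcn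
        simpa using this
      · simpa using hmem
    · exact ⟨p.leadingCoeff, p.leadingCoeff.2, hb, by rwa [mul_comm]⟩

theorem intCast_not_mem_nonunits (A : ValuationSubring L) {ℓ : ℕ} (hℓ : ℓ.Prime)
    (hA : (ℓ : L) ∈ A.nonunits) {a : ℤ} (ha : ¬ (ℓ : ℤ) ∣ a) : (a : L) ∉ A.nonunits := by
  intro hmem
  have hcop : IsCoprime (ℓ : ℤ) a :=
    (Prime.coprime_iff_not_dvd (Nat.prime_iff_prime_int.mp hℓ)).mpr ha
  obtain ⟨u, w, huw⟩ := hcop
  have h1 : ((u : L) * (ℓ : L) + (w : L) * (a : L)) = 1 := by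
    have := congrArg (Int.cast : ℤ → L) huw
    push_cast at this
    exact this
  have h2 : ((u : L) * (ℓ : L) + (w : L) * (a : L)) ∈ A.nonunits := by
    apply add_mem_nonunits
    · rw [mul_comm]; exact mul_mem_nonunits A hA (intCast_mem A u)
    · rw [mul_comm]; exact mul_mem_nonunits A hmem (intCast_mem A w)
  rw [h1] at h2
  simp [ValuationSubring.mem_nonunits_iff] at h2

theorem exists_mul_mem [Algebra ℚ L] [Algebra.IsAlgebraic ℚ L] (A : ValuationSubring L) {ℓ : ℕ}
    (hℓ : ℓ.Prime) (hA : (ℓ : L) ∈ A.nonunits) {x : L} (hx : x ∈ A) :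
    ∃ y : L, IsIntegral ℤ y ∧ y ∉ A.nonunits ∧ IsIntegral ℤ (x * y) := by
  have : CharZero L := algebraRat.charZero L
  have halg : IsAlgebraic ℤ x := by
    have h1 : IsAlgebraic ℚ x := Algebra.IsAlgebraic.isAlgebraic x
    exact (IsFractionRing.isAlgebraic_iff ℤ ℚ L).mpr h1
  obtain ⟨p, hp0, hpx⟩ := halg
  have hprim : p.primPart.IsPrimitive := p.isPrimitive_primPart
  have hpx' : aeval x p.primPart = 0 := aeval_primPart_eq_zero hp0 hpx
  have hex : ∃ i, ¬ (ℓ : ℤ) ∣ p.primPart.coeff i := by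
    by_contra hcon
    push Not at hcon
    have h1 : C (ℓ : ℤ) ∣ p.primPart := (C_dvd_iff_dvd_coeff _ _).mpr hcon
    have h2 := hprim _ h1
    exact (Nat.prime_iff_prime_int.mp hℓ).not_isUnit h2
  obtain ⟨i, hi⟩ := hex
  refine exists_mul_mem_aux A _ (p.primPart.map (algebraMap ℤ (integralClosure ℤ L))) le_rfl x hx
    ?_ ⟨i, ?_⟩
  · rw [aeval_map_algebraMap]; exact hpx'
  · rw [coeff_map]
    have : ((algebraMap ℤ (integralClosure ℤ L) (p.primPart.coeff i) : integralClosure ℤ L) : L)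
        = ((p.primPart.coeff i : ℤ) : L) := by
      simp
    rw [this]
    exact intCast_not_mem_nonunits A hℓ hA hi

theorem valuation_eq_one (A : ValuationSubring L) {y : L} (hy : y ∈ A) (hy' : y ∉ A.nonunits) :
    A.valuation y = 1 := by
  rw [ValuationSubring.mem_nonunits_iff, not_lt] at hy'
  rw [← ValuationSubring.valuation_le_one_iff] at hy
  exact le_antisymm hy hy'

theorem map_mem_of_forall [Algebra ℚ L] [Algebra.IsAlgebraic ℚ L] (A : ValuationSubring L) {ℓ : ℕ}
    (hℓ : ℓ.Prime) (hA : (ℓ : L) ∈ A.nonunits) (τ : L ≃ₐ[ℚ] L)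
    (hτ : ∀ b : L, IsIntegral ℤ b → b ∉ A.nonunits → τ b ∉ A.nonunits) {x : L} (hx : x ∈ A) :
    τ x ∈ A := by
  obtain ⟨y, hy, hyn, hxy⟩ := exists_mul_mem A hℓ hA hx
  have h1 : IsIntegral ℤ (τ y) := hy.map τ
  have h2 : IsIntegral ℤ (τ (x * y)) := hxy.map τ
  have h3 : A.valuation (τ y) = 1 := valuation_eq_one A (integral_mem A h1) (hτ y hy hyn)
  have h4 : A.valuation (τ (x * y)) ≤ 1 :=
    (ValuationSubring.valuation_le_one_iff A _).mpr (integral_mem A h2)
  rw [map_mul, map_mul, h3, mul_one] at h4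
  exact (ValuationSubring.valuation_le_one_iff A _).mp h4

open scoped Pointwise in
theorem isFrobeniusAt_of_forall_integral [Algebra ℚ L] [Algebra.IsAlgebraic ℚ L]
    (A : ValuationSubring L) (ℓ : ℕ) (hℓ : ℓ.Prime) (hA : A.LiesOverPrime ℓ) (σ : L ≃ₐ[ℚ] L)
    (hσ : ∀ b : L, IsIntegral ℤ b → σ b - b ^ ℓ ∈ A.nonunits) : A.IsFrobeniusAt σ ℓ := by
  have hA' : (ℓ : L) ∈ A.nonunits := hA
  have hpow : ∀ b : L, b ^ ℓ ∈ A.nonunits ↔ b ∈ A.nonunits := by
    intro b
    rw [ValuationSubring.mem_nonunits_iff, ValuationSubring.mem_nonunits_iff, map_pow]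
    exact pow_lt_one_iff hℓ.ne_zero
  have hiff : ∀ b : L, IsIntegral ℤ b → (σ b ∈ A.nonunits ↔ b ∈ A.nonunits) := by
    intro b hb
    rw [← hpow b]
    constructor
    · intro h
      have := sub_mem_nonunits A h (hσ b hb)
      simpa using this
    · intro h
      have := add_mem_nonunits A (hσ b hb) h
      simpa using this
  have hmem1 : ∀ x ∈ A, σ x ∈ A := fun x hx =>
    map_mem_of_forall A hℓ hA' σ (fun b hb hbn h => hbn ((hiff b hb).mp h)) hx
  have hmem2 : ∀ x ∈ A, σ⁻¹ x ∈ A := fun x hx =>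
    map_mem_of_forall A hℓ hA' σ⁻¹ (fun b hb hbn h => hbn (by
      have h1 : IsIntegral ℤ (σ⁻¹ b) := hb.map σ⁻¹
      have h2 := (hiff _ h1).mpr h
      have h3 : σ (σ⁻¹ b) = b := by
        change (σ * σ⁻¹) b = b
        simp
      rwa [h3] at h2)) hx
  have hdec : σ ∈ A.decompositionSubgroup ℚ := by
    rw [MulAction.mem_stabilizer_iff]
    apply le_antisymm
    · intro x hx
      rw [ValuationSubring.mem_pointwise_smul_iff_inv_smul_mem] at hx
      have := hmem1 _ hx
      have h3 : σ (σ⁻¹ • x) = x := by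
        change (σ * σ⁻¹) x = x
        simp
      rwa [h3] at this
    · intro x hx
      rw [ValuationSubring.mem_pointwise_smul_iff_inv_smul_mem]
      exact hmem2 x hx
  refine ⟨hdec, fun xbar => ?_⟩
  obtain ⟨x, rfl⟩ := IsLocalRing.residue_surjective xbar
  rw [← IsLocalRing.ResidueField.residue_smul, ← map_pow, ← sub_eq_zero, ← map_sub,
    IsLocalRing.residue_eq_zero_iff, ← ValuationSubring.coe_mem_nonunits_iff]
  have hcoe : (((⟨σ, hdec⟩ : A.decompositionSubgroup ℚ) • x - x ^ ℓ : A) : L)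
      = σ (x : L) - (x : L) ^ ℓ := rfl
  rw [hcoe]
  obtain ⟨y, hy, hyn, hxy⟩ := exists_mul_mem A hℓ hA' x.2
  have hyA : y ∈ A := integral_mem A hy
  have hzA : (x : L) * y ∈ A := integral_mem A hxy
  have h1 : A.valuation (σ y) = 1 :=
    valuation_eq_one A (integral_mem A (hy.map σ)) (fun h => hyn ((hiff y hy).mp h))
  have h2 : A.valuation y = 1 := valuation_eq_one A hyA hyn
  have hkey : (σ (x : L) - (x : L) ^ ℓ) * (σ y * y ^ ℓ)
      = (σ ((x : L) * y) - ((x : L) * y) ^ ℓ) * y ^ ℓ - (σ y - y ^ ℓ) * ((x : L) * y) ^ ℓ := by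
    rw [map_mul]; ring
  have h3 : (σ (x : L) - (x : L) ^ ℓ) * (σ y * y ^ ℓ) ∈ A.nonunits := by
    rw [hkey]
    exact sub_mem_nonunits A (mul_mem_nonunits A (hσ _ hxy) (pow_mem hyA ℓ))
      (mul_mem_nonunits A (hσ _ hy) (pow_mem hzA ℓ))
  rw [ValuationSubring.mem_nonunits_iff] at h3 ⊢
  rwa [map_mul, map_mul, map_pow, h1, h2, one_pow, mul_one, mul_one] at h3

theorem exists_liesOverPrime [CharZero L] (ℓ : ℕ) (hℓ : ℓ.Prime) :
    ∃ A : ValuationSubring L, A.LiesOverPrime ℓ := by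
  let R : Subring L := (Int.castRingHom L).range
  let l : R := ⟨(ℓ : L), ⟨(ℓ : ℤ), by simp⟩⟩
  have hne : Ideal.span {l} ≠ ⊤ := by
    intro h
    rw [Ideal.span_singleton_eq_top] at h
    obtain ⟨⟨_, ⟨n, rfl⟩⟩, hn⟩ := h.exists_right_inv
    have h1 : ((ℓ : L)) * ((n : ℤ) : L) = 1 := congrArg Subtype.val hn
    have h2 : (ℓ : ℤ) * n = 1 := by exact_mod_cast h1
    have h3 : IsUnit (ℓ : ℤ) := IsUnit.of_mul_eq_one _ h2
    exact (Nat.prime_iff_prime_int.mp hℓ).not_isUnit h3
  obtain ⟨B, -, hB⟩ := Ideal.image_subset_nonunits_valuationSubring _ hne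
  exact ⟨B, hB ⟨l, Ideal.subset_span rfl, rfl⟩⟩

end Fermat.Agent.Lib.FrobeniusVal
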