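import Mathlib

set_option autoImplicit false

open UpperHalfPlane ModularForm MatrixGroups Filter Topology EisensteinSeries Matrix
open scoped Manifold

namespace Fermat.Agent.Lib.EisChi

noncomputable section

/-- Eisenstein type series with coefficients `ψ`. -/
def eisP (ψ : (Fin 2 → ℤ) → ℂ) (k : ℤ) (z : ℍ) : ℂ := ∑' v, ψ v * eisSummand k v z

lemma coe_mul_inv (A : SL(2, ℤ)) : (A : Matrix (Fin 2) (Fin 2) ℤ) *
    ((A⁻¹ : SL(2, ℤ)) : Matrix (Fin 2) (Fin 2) ℤ) = 1 :=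
  congrArg (fun B : SL(2, ℤ) => (B : Matrix (Fin 2) (Fin 2) ℤ)) (mul_inv_cancel A)

lemma coe_inv_mul (A : SL(2, ℤ)) : ((A⁻¹ : SL(2, ℤ)) : Matrix (Fin 2) (Fin 2) ℤ) *
    (A : Matrix (Fin 2) (Fin 2) ℤ) = 1 :=
  congrArg (fun B : SL(2, ℤ) => (B : Matrix (Fin 2) (Fin 2) ℤ)) (inv_mul_cancel A)

/-- right multiplication by an element of `SL(2, ℤ)` as a permutation of `ℤ²`. -/
def vecEquiv (A : SL(2, ℤ)) : (Fin 2 → ℤ) ≃ (Fin 2 → ℤ) where
  toFun v := v ᵥ* (A : Matrix (Fin 2) (Fin 2) ℤ)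
  invFun v := v ᵥ* ((A⁻¹ : SL(2, ℤ)) : Matrix (Fin 2) (Fin 2) ℤ)
  left_inv v := by
    show (v ᵥ* (A : Matrix (Fin 2) (Fin 2) ℤ)) ᵥ* ((A⁻¹ : SL(2, ℤ)) : Matrix (Fin 2) (Fin 2) ℤ) = v
    rw [vecMul_vecMul, coe_mul_inv, vecMul_one]
  right_inv v := by
    show (v ᵥ* ((A⁻¹ : SL(2, ℤ)) : Matrix (Fin 2) (Fin 2) ℤ)) ᵥ* (A : Matrix (Fin 2) (Fin 2) ℤ) = v
    rw [vecMul_vecMul, coe_inv_mul, vecMul_one]

lemma vecEquiv_apply (A : SL(2, ℤ)) (v : Fin 2 → ℤ) :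
    vecEquiv A v = v ᵥ* (A : Matrix (Fin 2) (Fin 2) ℤ) := rfl

lemma vecEquiv_symm_apply (A : SL(2, ℤ)) (v : Fin 2 → ℤ) :
    (vecEquiv A).symm v = v ᵥ* ((A⁻¹ : SL(2, ℤ)) : Matrix (Fin 2) (Fin 2) ℤ) := rfl

variable {ψ : (Fin 2 → ℤ) → ℂ} {C : ℝ} {k : ℤ}

lemma summable_norm_term (hψ : ∀ v, ‖ψ v‖ ≤ C) (hk : 3 ≤ k) (z : ℍ) :
    Summable fun v => ‖ψ v * eisSummand k v z‖ := by
  refine ((summable_norm_eisSummand hk z).mul_left C).of_nonneg_of_le (fun _ => norm_nonneg _) ?_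
  intro v
  rw [norm_mul]
  exact mul_le_mul_of_nonneg_right (hψ v) (norm_nonneg _)

lemma summable_term (hψ : ∀ v, ‖ψ v‖ ≤ C) (hk : 3 ≤ k) (z : ℍ) :
    Summable fun v => ψ v * eisSummand k v z :=
  (summable_norm_term hψ hk z).of_norm

lemma eisP_slash (ψ : (Fin 2 → ℤ) → ℂ) (k : ℤ) (A : SL(2, ℤ)) :
    eisP ψ k ∣[k] A = eisP (fun v => ψ ((vecEquiv A).symm v)) k := by
  ext1 z
  simp_rw [SL_slash_apply, _root_.zpow_neg,
    mul_inv_eq_iff_eq_mul₀ (zpow_ne_zero _ <| denom_ne_zero _ z),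
    eisP, eisSummand_SL2_apply]
  rw [← tsum_mul_right]
  rw [← (vecEquiv A).tsum_eq (fun v => ψ ((vecEquiv A).symm v) * eisSummand k v z * denom A z ^ k)]
  refine tsum_congr fun v => ?_
  rw [Equiv.symm_apply_apply, vecEquiv_apply]
  ring

theorem eisP_tendstoLocallyUniformly (hψ : ∀ v, ‖ψ v‖ ≤ C) (hk : 3 ≤ k) :
    TendstoLocallyUniformly (fun (s : Finset (Fin 2 → ℤ)) ↦ (∑ x ∈ s, ψ x * eisSummand k x ·))
      (eisP ψ k ·) Filter.atTop := by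
  have hk' : (2 : ℝ) < k := by norm_cast
  have p_sum : Summable fun x : Fin 2 → ℤ ↦ ‖x‖ ^ (-k) :=
    mod_cast (summable_one_div_norm_rpow hk')
  simp only [tendstoLocallyUniformly_iff_forall_isCompact, eisP]
  intro K hK
  obtain ⟨A, B, hB, HABK⟩ := subset_verticalStrip_of_isCompact hK
  refine (tendstoUniformlyOn_tsum (hu := (p_sum.mul_left <| r ⟨⟨A, B⟩, hB⟩ ^ (-k : ℝ)).mul_left C)
    (fun p z hz ↦ ?_)).mono HABK
  rw [norm_mul]
  have hC : 0 ≤ C := (norm_nonneg _).trans (hψ 0)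
  refine mul_le_mul (hψ p) ?_ (norm_nonneg _) hC
  simpa only [eisSummand, one_div, ← _root_.zpow_neg, norm_zpow, ← Real.rpow_intCast,
    Int.cast_neg] using summand_bound_of_mem_verticalStrip (by positivity) p hB hz

lemma eisP_tendstoLocallyUniformlyOn (hψ : ∀ v, ‖ψ v‖ ≤ C) (hk : 3 ≤ k) :
    TendstoLocallyUniformlyOn (fun (s : Finset (Fin 2 → ℤ)) ↦
      ↑ₕ(fun (z : ℍ) ↦ ∑ x ∈ s, ψ x * eisSummand k x z)) (↑ₕ(eisP ψ k))
          Filter.atTop {z : ℂ | 0 < z.im} := by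
  rw [← upperHalfPlaneSet, ← range_coe, ← Set.image_univ]
  apply TendstoLocallyUniformlyOn.comp (s := ⊤) _ _ _ (OpenPartialHomeomorph.continuousOn_symm _)
  · simp only [Set.top_eq_univ, tendstoLocallyUniformlyOn_univ]
    apply eisP_tendstoLocallyUniformly hψ hk
  · simp only [IsOpenEmbedding.toOpenPartialHomeomorph_target, Set.top_eq_univ,
      Set.mapsTo_range_iff, Set.mem_univ, forall_const]

theorem eisP_mdifferentiable (hψ : ∀ v, ‖ψ v‖ ≤ C) (hk : 3 ≤ k) : MDiff (eisP ψ k) := by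
  rw [UpperHalfPlane.mdifferentiable_iff]
  refine (eisP_tendstoLocallyUniformlyOn hψ hk).differentiableOn
    (Eventually.of_forall fun s ↦ ?_) isOpen_upperHalfPlaneSet
  have : (↑ₕ(fun (z : ℍ) ↦ ∑ x ∈ s, ψ x * eisSummand k x z)) =
      fun w => ∑ x ∈ s, ψ x * (↑ₕ(eisSummand k x)) w := by
    funext w
    simp [Function.comp]
  rw [this]
  exact DifferentiableOn.fun_sum
    fun x _ ↦ (eisSummand_extension_differentiableOn k x).const_mul (ψ x)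

/-! ### Bounds -/

/-- the sum of the norms of all summands -/
def sumN (k : ℤ) (z : ℍ) : ℝ := ∑' v : Fin 2 → ℤ, ‖eisSummand k v z‖

lemma denom_T_zpow (n : ℤ) (z : ℍ) : denom (ModularGroup.T ^ n : SL(2, ℤ)) z = 1 := by
  rw [ModularGroup.denom_apply]
  have h := ModularGroup.coe_T_zpow n
  have h10 : (ModularGroup.T ^ n : SL(2, ℤ)) 1 0 = 0 := by
    have := congrFun (congrFun h 1) 0
    simpa using this
  have h11 : (ModularGroup.T ^ n : SL(2, ℤ)) 1 1 = 1 := by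
    have := congrFun (congrFun h 1) 1
    simpa using this
  rw [h10, h11]
  simp

lemma sumN_T_zpow (k n : ℤ) (z : ℍ) : sumN k (ModularGroup.T ^ n • z) = sumN k z := by
  unfold sumN
  simp_rw [eisSummand_SL2_apply, denom_T_zpow, _root_.one_zpow, one_mul]
  exact (vecEquiv (ModularGroup.T ^ n)).tsum_eq (fun v => ‖eisSummand k v z‖)

/-- a uniform bound -/
def bd (k : ℤ) : ℝ := ∑' x : Fin 2 → ℤ, r ⟨⟨1, 1⟩, one_pos⟩ ^ (-k) * ‖x‖ ^ (-k)

lemma sumN_le (hk : 3 ≤ k) {z : ℍ} (hz : 1 ≤ z.im) : sumN k z ≤ bd k := by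
  obtain ⟨n, hn⟩ := ModularGroup_T_zpow_mem_verticalStrip z (N := 1) one_pos
  rw [← sumN_T_zpow k ((1 : ℕ) * n) z]
  have hk' : (2 : ℝ) < k := by norm_cast
  apply (summable_norm_eisSummand hk _).tsum_le_tsum _
  · exact_mod_cast (summable_one_div_norm_rpow hk').mul_left <| r ⟨⟨1, 1⟩, one_pos⟩ ^ (-k)
  · intro x
    simp_rw [eisSummand, norm_zpow]
    exact_mod_cast
      summand_bound_of_mem_verticalStrip (lt_trans two_pos hk').le x one_pos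
      (verticalStrip_anti_right 1 hz (by exact_mod_cast hn))

lemma norm_eisP_le (hψ : ∀ v, ‖ψ v‖ ≤ C) (hk : 3 ≤ k) (z : ℍ) : ‖eisP ψ k z‖ ≤ C * sumN k z := by
  unfold eisP sumN
  refine (norm_tsum_le_tsum_norm (summable_norm_term hψ hk z)).trans ?_
  rw [← tsum_mul_left]
  refine (summable_norm_term hψ hk z).tsum_le_tsum (fun v => ?_)
    ((summable_norm_eisSummand hk z).mul_left C)
  rw [norm_mul]
  exact mul_le_mul_of_nonneg_right (hψ v) (norm_nonneg _)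

theorem eisP_isBoundedAtImInfty (hψ : ∀ v, ‖ψ v‖ ≤ C) (hk : 3 ≤ k) :
    IsBoundedAtImInfty (eisP ψ k) := by
  rw [UpperHalfPlane.isBoundedAtImInfty_iff]
  have hC : 0 ≤ C := (norm_nonneg _).trans (hψ 0)
  exact ⟨C * bd k, 1, fun z hz => (norm_eisP_le hψ hk z).trans
    (mul_le_mul_of_nonneg_left (sumN_le hk hz) hC)⟩

theorem eisP_slash_isBoundedAtImInfty (hψ : ∀ v, ‖ψ v‖ ≤ C) (hk : 3 ≤ k) (A : SL(2, ℤ)) :
    IsBoundedAtImInfty (eisP ψ k ∣[k] A) := by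
  rw [eisP_slash]
  exact eisP_isBoundedAtImInfty (fun v => hψ _) hk

/-! ### The limit at `i∞` -/

/-- the constant term -/
def constTerm (ψ : (Fin 2 → ℤ) → ℂ) (k : ℤ) : ℂ :=
  ∑' v : Fin 2 → ℤ, if v 0 = 0 then ψ v * ((v 1 : ℤ) : ℂ) ^ (-k) else 0

lemma eisSummand_of_zero {v : Fin 2 → ℤ} (hv : v 0 = 0) (k : ℤ) (z : ℍ) :
    eisSummand k v z = ((v 1 : ℤ) : ℂ) ^ (-k) := by
  simp [eisSummand, hv]

lemma norm_eisSummand_le_of_ne {v : Fin 2 → ℤ} (hv : v 0 ≠ 0) (k : ℤ) (z : ℍ) :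
    ‖eisSummand k v z‖ ≤ (z.im)⁻¹ * ‖eisSummand (k - 1) v z‖ := by
  simp only [eisSummand, norm_zpow]
  set w : ℂ := (v 0 : ℂ) * z + v 1 with hw
  have him : z.im ≤ ‖w‖ := by
    have h1 : |w.im| ≤ ‖w‖ := Complex.abs_im_le_norm w
    have h2 : w.im = (v 0 : ℝ) * z.im := by
      simp [hw]
    have h3 : (1 : ℝ) ≤ |(v 0 : ℝ)| := by
      exact_mod_cast Int.one_le_abs hv
    rw [h2, abs_mul, abs_of_pos z.im_pos] at h1
    nlinarith [z.im_pos]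
  have hpos : 0 < ‖w‖ := lt_of_lt_of_le z.im_pos him
  have e : ‖w‖ ^ (-k) = ‖w‖⁻¹ * ‖w‖ ^ (-(k - 1)) := by
    rw [← _root_.zpow_neg_one, ← zpow_add₀ hpos.ne']
    congr 1
    ring
  rw [e]
  refine mul_le_mul_of_nonneg_right ?_ (zpow_nonneg hpos.le _)
  exact inv_anti₀ z.im_pos him

lemma summable_constTerm (hψ : ∀ v, ‖ψ v‖ ≤ C) (hk : 3 ≤ k) :
    Summable fun v : Fin 2 → ℤ => if v 0 = 0 then ψ v * ((v 1 : ℤ) : ℂ) ^ (-k) else 0 := by
  refine Summable.of_norm_bounded (summable_norm_term hψ hk UpperHalfPlane.I) fun v => ?_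
  split_ifs with hv
  · rw [eisSummand_of_zero hv]
  · rw [norm_zero]
    exact norm_nonneg _

lemma norm_eisP_sub_constTerm_le (hψ : ∀ v, ‖ψ v‖ ≤ C) (hk : 4 ≤ k) {z : ℍ} (hz : 1 ≤ z.im) :
    ‖eisP ψ k z - constTerm ψ k‖ ≤ C * bd (k - 1) * (z.im)⁻¹ := by
  have hC : 0 ≤ C := (norm_nonneg _).trans (hψ 0)
  have hk3 : 3 ≤ k := by omega
  have hk1 : 3 ≤ k - 1 := by omega
  unfold eisP constTerm
  rw [← (summable_term hψ hk3 z).tsum_sub (summable_constTerm hψ hk3)]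
  have hb : ∀ v : Fin 2 → ℤ, ‖ψ v * eisSummand k v z -
      (if v 0 = 0 then ψ v * ((v 1 : ℤ) : ℂ) ^ (-k) else 0)‖ ≤
      C * (z.im)⁻¹ * ‖eisSummand (k - 1) v z‖ := by
    intro v
    split_ifs with hv
    · rw [eisSummand_of_zero hv, sub_self, norm_zero]
      have := z.im_pos
      positivity
    · rw [sub_zero, norm_mul, mul_assoc]
      exact mul_le_mul (hψ v) (norm_eisSummand_le_of_ne hv k z) (norm_nonneg _) hC
  have hs := (summable_norm_eisSummand hk1 z).mul_left (C * (z.im)⁻¹)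
  refine (norm_tsum_le_tsum_norm (Summable.of_nonneg_of_le (fun _ => norm_nonneg _) hb hs)).trans ?_
  refine ((Summable.of_nonneg_of_le (fun _ => norm_nonneg _) hb hs).tsum_le_tsum hb hs).trans ?_
  rw [tsum_mul_left]
  have h1 := sumN_le hk1 hz
  unfold sumN at h1
  have h2 : 0 ≤ C * (z.im)⁻¹ := by
    have := z.im_pos
    positivity
  calc C * (z.im)⁻¹ * ∑' v : Fin 2 → ℤ, ‖eisSummand (k - 1) v z‖ ≤ C * (z.im)⁻¹ * bd (k - 1) :=
        mul_le_mul_of_nonneg_left h1 h2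
    _ = C * bd (k - 1) * (z.im)⁻¹ := by ring

theorem tendsto_eisP (hψ : ∀ v, ‖ψ v‖ ≤ C) (hk : 4 ≤ k) :
    Tendsto (eisP ψ k) atImInfty (𝓝 (constTerm ψ k)) := by
  rw [tendsto_iff_norm_sub_tendsto_zero]
  have h1 : Tendsto (fun z : ℍ => C * bd (k - 1) * (z.im)⁻¹) atImInfty (𝓝 0) := by
    have : Tendsto (fun z : ℍ => (z.im)⁻¹) atImInfty (𝓝 0) :=
      tendsto_inv_atTop_zero.comp tendsto_comap
    simpa using this.const_mul (C * bd (k - 1))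
  refine squeeze_zero' (Eventually.of_forall fun _ => norm_nonneg _) ?_ h1
  rw [Filter.Eventually, atImInfty_mem]
  exact ⟨1, fun z hz => norm_eisP_sub_constTerm_le hψ hk hz⟩

/-! ### Characters -/

section character

variable {Γ : Subgroup SL(2, ℤ)} (χ : Γ →* ℂˣ)

lemma row_mul (δ γ : SL(2, ℤ)) :
    (δ * γ : SL(2, ℤ)) 1 = (δ 1 : Fin 2 → ℤ) ᵥ* (γ : Matrix (Fin 2) (Fin 2) ℤ) :=
  Matrix.mul_apply_eq_vecMul _ _ _

open Classical in
/-- the coefficient function attached to a character -/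
def psiChi (v : Fin 2 → ℤ) : ℂ :=
  if h : ∃ γ : Γ, (γ : SL(2, ℤ)) 1 = v then (((χ h.choose)⁻¹ : ℂˣ) : ℂ) else 0

variable {χ}

lemma chi_eq_of_row_eq (hT : ∀ γ : Γ, (γ : SL(2, ℤ)) 1 0 = 0 → χ γ = 1) {γ γ' : Γ}
    (h : (γ : SL(2, ℤ)) 1 = (γ' : SL(2, ℤ)) 1) : χ γ = χ γ' := by
  have h1 : ((γ' * γ⁻¹ : Γ) : SL(2, ℤ)) 1 = ((1 : SL(2, ℤ)) 1 : Fin 2 → ℤ) := by
    rw [Subgroup.coe_mul, row_mul, ← h, ← row_mul, Subgroup.coe_inv, mul_inv_cancel]
  have h2 : χ (γ' * γ⁻¹) = 1 := by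
    apply hT
    rw [h1]
    simp
  rw [map_mul, map_inv, mul_inv_eq_one] at h2
  exact h2.symm

lemma psiChi_row (hT : ∀ γ : Γ, (γ : SL(2, ℤ)) 1 0 = 0 → χ γ = 1) (γ : Γ) :
    psiChi χ ((γ : SL(2, ℤ)) 1) = (((χ γ)⁻¹ : ℂˣ) : ℂ) := by
  have h : ∃ γ' : Γ, (γ' : SL(2, ℤ)) 1 = (γ : SL(2, ℤ)) 1 := ⟨γ, rfl⟩
  unfold psiChi
  rw [dif_pos h, chi_eq_of_row_eq hT h.choose_spec]

lemma psiChi_of_not {v : Fin 2 → ℤ} (h : ¬ ∃ γ : Γ, (γ : SL(2, ℤ)) 1 = v) : psiChi χ v = 0 := by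
  unfold psiChi
  rw [dif_neg h]

lemma norm_psiChi_le (hχ : ∀ γ, ‖(χ γ : ℂ)‖ = 1) (v : Fin 2 → ℤ) : ‖psiChi χ v‖ ≤ 1 := by
  unfold psiChi
  split_ifs with h
  · rw [Units.val_inv_eq_inv_val, norm_inv, hχ, inv_one]
  · simp

lemma psiChi_symm (hT : ∀ γ : Γ, (γ : SL(2, ℤ)) 1 0 = 0 → χ γ = 1) (γ : Γ) (v : Fin 2 → ℤ) :
    psiChi χ ((vecEquiv (γ : SL(2, ℤ))).symm v) = (χ γ : ℂ) * psiChi χ v := by
  by_cases h : ∃ δ : Γ, (δ : SL(2, ℤ)) 1 = v
  · obtain ⟨δ, rfl⟩ := h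
    rw [vecEquiv_symm_apply, ← row_mul]
    have : (δ : SL(2, ℤ)) * (γ : SL(2, ℤ))⁻¹ = ((δ * γ⁻¹ : Γ) : SL(2, ℤ)) := by
      simp
    rw [this, psiChi_row hT, psiChi_row hT, map_mul, map_inv, mul_inv, inv_inv, Units.val_mul,
      mul_comm]
  · rw [psiChi_of_not h, mul_zero]
    apply psiChi_of_not
    rintro ⟨δ, hδ⟩
    apply h
    refine ⟨δ * γ, ?_⟩
    rw [Subgroup.coe_mul, row_mul, hδ, ← vecEquiv_apply, Equiv.apply_symm_apply]

lemma constTerm_psiChi (hT : ∀ γ : Γ, (γ : SL(2, ℤ)) 1 0 = 0 → χ γ = 1) (hke : Even k) :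
    constTerm (psiChi χ) k = 1 ∨ constTerm (psiChi χ) k = 2 := by
  classical
  unfold constTerm
  have hne : (![0, 1] : Fin 2 → ℤ) ≠ ![0, -1] := by
    intro h
    have := congrFun h 1
    simp at this
  rw [tsum_eq_sum (s := {![0, 1], ![0, -1]})]
  · rw [Finset.sum_pair hne]
    have h1 : psiChi χ ![0, 1] = 1 := by
      have := psiChi_row hT (1 : Γ)
      have e : ((1 : Γ) : SL(2, ℤ)) 1 = ![0, 1] := by
        funext i
        fin_cases i <;> simp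
      rw [e] at this
      simpa using this
    have h2 : psiChi χ ![0, -1] = 0 ∨ psiChi χ ![0, -1] = 1 := by
      by_cases h : ∃ γ : Γ, (γ : SL(2, ℤ)) 1 = ![0, -1]
      · right
        obtain ⟨γ, hγ⟩ := h
        rw [← hγ, psiChi_row hT, hT γ (by rw [hγ]; simp)]
        simp
      · left
        exact psiChi_of_not h
    simp only [Matrix.cons_val_zero, if_true, Matrix.cons_val_one, h1, Int.cast_one,
      _root_.one_zpow, mul_one, Int.cast_neg, hke.neg.neg_one_zpow]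
    rcases h2 with h2 | h2
    · left; rw [h2]; simp
    · right; rw [h2]; norm_num
  · intro v hv
    split_ifs with h0
    · by_cases h : ∃ γ : Γ, (γ : SL(2, ℤ)) 1 = v
      · exfalso
        obtain ⟨γ, rfl⟩ := h
        have hdet := Matrix.det_fin_two ((γ : SL(2, ℤ)) : Matrix (Fin 2) (Fin 2) ℤ)
        rw [(γ : SL(2, ℤ)).2] at hdet
        have h0' : ((γ : SL(2, ℤ)) : Matrix (Fin 2) (Fin 2) ℤ) 1 0 = 0 := h0
        rw [h0', mul_zero, sub_zero] at hdet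
        have hu : IsUnit (((γ : SL(2, ℤ)) : Matrix (Fin 2) (Fin 2) ℤ) 1 1) :=
          IsUnit.of_mul_eq_one_right _ hdet.symm
        apply hv
        simp only [Finset.mem_insert, Finset.mem_singleton]
        rcases Int.isUnit_iff.1 hu with h1 | h1
        · left
          funext i
          fin_cases i
          · exact h0
          · exact h1
        · right
          funext i
          fin_cases i
          · exact h0
          · exact h1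
      · rw [psiChi_of_not h, zero_mul]
    · rfl

/-- **Eisenstein series with character.** -/
theorem exists_eis_char (hχ : ∀ γ, ‖(χ γ : ℂ)‖ = 1)
    (hT : ∀ γ : Γ, (γ : SL(2, ℤ)) 1 0 = 0 → χ γ = 1) (hk : 4 ≤ k) (hke : Even k) :
    ∃ E : ℍ → ℂ, MDiff E ∧ (∀ γ : Γ, E ∣[k] (γ : SL(2, ℤ)) = (χ γ : ℂ) • E) ∧
      (∀ δ : SL(2, ℤ), IsBoundedAtImInfty (E ∣[k] δ)) ∧ Tendsto E atImInfty (𝓝 1) := by
  have hψ := norm_psiChi_le hχ
  have hk3 : 3 ≤ k := by omega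
  have hc : constTerm (psiChi χ) k ≠ 0 := by
    rcases constTerm_psiChi hT hke with h | h <;> rw [h] <;> norm_num
  refine ⟨(constTerm (psiChi χ) k)⁻¹ • eisP (psiChi χ) k, ?_, ?_, ?_, ?_⟩
  · exact (eisP_mdifferentiable hψ hk3).const_smul _
  · intro γ
    rw [SL_smul_slash, eisP_slash]
    have : eisP (fun v => psiChi χ ((vecEquiv (γ : SL(2, ℤ))).symm v)) k =
        (χ γ : ℂ) • eisP (psiChi χ) k := by
      funext z
      simp only [eisP, psiChi_symm hT, Pi.smul_apply, smul_eq_mul, mul_assoc, tsum_mul_left]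
    rw [this, smul_comm]
  · intro δ
    rw [SL_smul_slash]
    exact (eisP_slash_isBoundedAtImInfty hψ hk3 δ).const_smul_left _
  · have := (tendsto_eisP hψ hk).const_smul (constTerm (psiChi χ) k)⁻¹
    rw [smul_eq_mul, inv_mul_cancel₀ hc] at this
    exact this

end character

end

end Fermat.Agent.Lib.EisChi
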