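import Mathlib
import Fermat.Agent.Lib.Frobenius
import Fermat.Agent.Lib.FrobeniusVal

set_option autoImplicit false

namespace Fermat.Agent.Lib.Minkowski

open Fermat.Agent.Lib.Frobenius
open scoped Pointwise

section Relative

variable {K L : Type*} [Field K] [Field L] [Algebra K L]

instance instInvSubring : IsInvariantSubring (L ≃ₐ[K] L) (intSubring L) where
  smul_mem g x hx := by
    rw [mem_intSubring] at hx ⊢
    exact hx.map (g.restrictScalars ℤ)

theorem coe_smul_int (g : L ≃ₐ[K] L) (b : intSubring L) :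
    ((g • b : intSubring L) : L) = g (b : L) := rfl

variable (K L) in
/-- The inclusion of rings of integers. -/
def intMap : intSubring K →+* intSubring L where
  toFun x := ⟨algebraMap K L x, (mem_intSubring.mp x.2).algebraMap⟩
  map_one' := Subtype.ext (by simp)
  map_mul' x y := Subtype.ext (by simp)
  map_zero' := Subtype.ext (by simp)
  map_add' x y := Subtype.ext (by simp)

@[simp] theorem coe_intMap (x : intSubring K) : ((intMap K L x : intSubring L) : L)
    = algebraMap K L x := rfl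

variable (K L) in
/-- The algebra structure on rings of integers. -/
@[reducible] def intAlgebra : Algebra (intSubring K) (intSubring L) := (intMap K L).toAlgebra

attribute [local instance] intAlgebra

theorem algebraMap_int_eq (x : intSubring K) :
    algebraMap (intSubring K) (intSubring L) x = intMap K L x := rfl

instance instSMulComm : SMulCommClass (L ≃ₐ[K] L) (intSubring K) (intSubring L) where
  smul_comm g a b := by
    rw [Algebra.smul_def, Algebra.smul_def, smul_mul']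
    congr 1
    apply Subtype.ext
    rw [coe_smul_int, algebraMap_int_eq, coe_intMap, AlgEquiv.commutes]

instance instIsInvariantRel [IsGalois K L] :
    Algebra.IsInvariant (intSubring K) (intSubring L) (L ≃ₐ[K] L) where
  isInvariant b hb := by
    have h1 : ∀ g : L ≃ₐ[K] L, g (b : L) = b := fun g => congrArg Subtype.val (hb g)
    obtain ⟨q, hq⟩ := (InfiniteGalois.mem_range_algebraMap_iff_fixed (k := K) (b : L)).mpr h1
    have h2 : IsIntegral ℤ q := by
      have := b.2
      rw [mem_intSubring, ← hq] at this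
      exact (isIntegral_algebraMap_iff (algebraMap K L).injective).mp this
    exact ⟨⟨q, h2⟩, Subtype.ext hq⟩

/-- Transitivity of `Gal(L/K)` on the primes of the integers of `L` above a prime of `K`. -/
theorem exists_smul_eq [IsGalois K L] (Q Q' : Ideal (intSubring L)) [Q.IsPrime] [Q'.IsPrime]
    (h : ∀ a : intSubring K, intMap K L a ∈ Q ↔ intMap K L a ∈ Q') :
    ∃ g : L ≃ₐ[K] L, Q' = g • Q := by
  let _ : TopologicalSpace (intSubring L) := ⊥
  have : DiscreteTopology (intSubring L) := ⟨rfl⟩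
  have : ContinuousSMul (L ≃ₐ[K] L) (intSubring L) := by
    rw [continuousSMul_iff_stabilizer_isOpen]
    intro b
    convert stabilizer_isOpen_of_isIntegral (K := K) (b : L) using 1
    ext g
    simp only [SetLike.mem_coe, MulAction.mem_stabilizer_iff]
    exact Subtype.ext_iff
  apply Algebra.IsInvariant.exists_smul_of_under_eq_of_profinite (A := intSubring K)
  ext a
  exact h a

/-- Surjectivity of the decomposition group of `L/K` onto the automorphisms of the residue
extension, in elementwise form. -/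
theorem exists_stabilizer_congr [IsGalois K L] (Q : Ideal (intSubring L)) [Q.IsPrime]
    (s : intSubring L ≃+* intSubring L) (hs : Q = Q.map s)
    (hsK : ∀ a : intSubring K, s (intMap K L a) - intMap K L a ∈ Q) :
    ∃ g : L ≃ₐ[K] L, g • Q = Q ∧ ∀ b : intSubring L, g • b - s b ∈ Q := by
  let _ : TopologicalSpace (intSubring L) := ⊥
  have : DiscreteTopology (intSubring L) := ⟨rfl⟩
  have : ContinuousSMul (L ≃ₐ[K] L) (intSubring L) := by
    rw [continuousSMul_iff_stabilizer_isOpen]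
    intro b
    convert stabilizer_isOpen_of_isIntegral (K := K) (b : L) using 1
    ext g
    simp only [SetLike.mem_coe, MulAction.mem_stabilizer_iff]
    exact Subtype.ext_iff
  let P : Ideal (intSubring K) := Q.under (intSubring K)
  have hQP : Q.LiesOver P := ⟨rfl⟩
  let l : (intSubring L ⧸ Q) ≃ₐ[intSubring K ⧸ P] (intSubring L ⧸ Q) :=
    { __ := Ideal.quotientEquiv Q Q s hs
      commutes' := by
        rintro ⟨a⟩
        exact (Ideal.Quotient.eq).mpr (hsK a) }
  obtain ⟨σ, hσ⟩ := Ideal.Quotient.stabilizerHom_surjective_of_profinite (G := L ≃ₐ[K] L) P Q l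
  refine ⟨σ.1, σ.2, fun b => ?_⟩
  have h1 := DFunLike.congr_fun hσ (Ideal.Quotient.mk Q b)
  have h2 : l (Ideal.Quotient.mk Q b) = Ideal.Quotient.mk Q (s b) := rfl
  rw [h2, Ideal.Quotient.stabilizerHom_apply, Ideal.Quotient.eq] at h1
  exact h1

end Relative

section Inertia

open Fermat.Agent.Lib.FrobeniusVal in
/-- Criterion for membership in the inertia subgroup, tested on algebraic integers only. -/
theorem mem_inertiaSubgroupIn_of_forall_integral {L : Type*} [Field L] [Algebra ℚ L]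
    [Algebra.IsAlgebraic ℚ L]
    (A : ValuationSubring L) (ℓ : ℕ) (hℓ : ℓ.Prime) (hA : A.LiesOverPrime ℓ) (σ : L ≃ₐ[ℚ] L)
    (hσ : ∀ b : L, IsIntegral ℤ b → σ b - b ∈ A.nonunits) : σ ∈ A.inertiaSubgroupIn ℚ := by
  have hA' : (ℓ : L) ∈ A.nonunits := hA
  have hiff : ∀ b : L, IsIntegral ℤ b → (σ b ∈ A.nonunits ↔ b ∈ A.nonunits) := by
    intro b hb
    constructor
    · intro h
      have := FrobeniusVal.sub_mem_nonunits A h (hσ b hb)
      simpa using this
    · intro h
      have := FrobeniusVal.add_mem_nonunits A (hσ b hb) h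
      simpa using this
  have hmem1 : ∀ x ∈ A, σ x ∈ A := fun x hx =>
    map_mem_of_forall A hℓ hA' σ (fun b hb hbn h => hbn ((hiff b hb).mp h)) hx
  have hmem2 : ∀ x ∈ A, σ⁻¹ x ∈ A := fun x hx =>
    map_mem_of_forall A hℓ hA' σ⁻¹ (fun b hb hbn h => hbn (by
      have h1 : IsIntegral ℤ (σ⁻¹ b) := hb.map σ⁻¹
      have h2 := (hiff _ h1).mpr h
      have h3 : σ (σ⁻¹ b) = b := by
        change (σ * σ⁻¹) b = b
        simp
      rwa [h3] at h2)) hx
  have hdec : σ ∈ A.decompositionSubgroup ℚ := by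
    rw [MulAction.mem_stabilizer_iff]
    apply le_antisymm
    · intro x hx
      rw [ValuationSubring.mem_pointwise_smul_iff_inv_smul_mem] at hx
      have := hmem1 _ hx
      have h3 : σ (σ⁻¹ • x) = x := by
        change (σ * σ⁻¹) x = x
        simp
      rwa [h3] at this
    · intro x hx
      rw [ValuationSubring.mem_pointwise_smul_iff_inv_smul_mem]
      exact hmem2 x hx
  refine ⟨⟨σ, hdec⟩, ?_, rfl⟩
  change _ ∈ MonoidHom.ker _
  rw [MonoidHom.mem_ker]
  apply RingEquiv.ext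
  intro xbar
  obtain ⟨x, rfl⟩ := IsLocalRing.residue_surjective xbar
  change (⟨σ, hdec⟩ : A.decompositionSubgroup ℚ) • IsLocalRing.residue A x = IsLocalRing.residue A x
  rw [← IsLocalRing.ResidueField.residue_smul, ← sub_eq_zero, ← map_sub,
    IsLocalRing.residue_eq_zero_iff, ← ValuationSubring.coe_mem_nonunits_iff]
  have hcoe : (((⟨σ, hdec⟩ : A.decompositionSubgroup ℚ) • x - x : A) : L)
      = σ (x : L) - (x : L) := rfl
  rw [hcoe]
  obtain ⟨y, hy, hyn, hxy⟩ := exists_mul_mem A hℓ hA' x.2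
  have hyA : y ∈ A := integral_mem A hy
  have hzA : (x : L) * y ∈ A := integral_mem A hxy
  have h1 : A.valuation (σ y) = 1 :=
    valuation_eq_one A (integral_mem A (hy.map σ)) (fun h => hyn ((hiff y hy).mp h))
  have hkey : (σ (x : L) - (x : L)) * σ y
      = (σ ((x : L) * y) - ((x : L) * y)) - (σ y - y) * (x : L) := by
    rw [map_mul]; ring
  have h3 : (σ (x : L) - (x : L)) * σ y ∈ A.nonunits := by
    rw [hkey]
    exact FrobeniusVal.sub_mem_nonunits A (hσ _ hxy) (FrobeniusVal.mul_mem_nonunits A (hσ _ hy) x.2)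
  rw [ValuationSubring.mem_nonunits_iff] at h3 ⊢
  rwa [map_mul, h1, mul_one] at h3

end Inertia

section Lift

variable {L : Type*} [Field L] [Algebra ℚ L] [IsGalois ℚ L]

theorem exists_lift_inertia (K : IntermediateField ℚ L) [Normal ℚ K]
    (A : ValuationSubring L) (ℓ : ℕ) (hℓ : ℓ.Prime) (hA : A.LiesOverPrime ℓ)
    (τ : K ≃ₐ[ℚ] K) (hτ : ∀ x : K, IsIntegral ℤ x → ((τ x : K) : L) - (x : L) ∈ A.nonunits) :
    ∃ σ ∈ A.inertiaSubgroupIn ℚ, ∀ x : K, σ (x : L) = (τ x : K) := by
  have hint : ∀ (g : L ≃ₐ[ℚ] L) (b : L), IsIntegral ℤ b → IsIntegral ℤ (g b) :=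
    fun g b hb => hb.map (g.restrictScalars ℤ)
  have hintK : ∀ (g : K ≃ₐ[ℚ] K) (b : K), IsIntegral ℤ b → IsIntegral ℤ (g b) :=
    fun g b hb => hb.map (g.restrictScalars ℤ)
  set σ₀ : L ≃ₐ[ℚ] L := τ.liftNormal L with hσ₀
  have hσ₀K : ∀ x : K, σ₀ (x : L) = (τ x : K) := fun x => AlgEquiv.liftNormal_commutes τ L x
  have hσ₀K' : ∀ x : K, σ₀⁻¹ (x : L) = (τ.symm x : K) := by
    intro x
    have h := hσ₀K (τ.symm x)
    rw [AlgEquiv.apply_symm_apply] at h
    rw [← h]
    change (σ₀⁻¹ * σ₀) _ = _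
    simp
  let Q : Ideal (intSubring L) := centre A
  let Q' : Ideal (intSubring L) := σ₀ • Q
  have hQ'prime : Q'.IsPrime := inferInstance
  have hQ' : ∀ b : intSubring L, b ∈ Q' ↔ σ₀⁻¹ (b : L) ∈ A.nonunits := by
    intro b
    rw [Ideal.mem_pointwise_smul_iff_inv_smul_mem, mem_centre]
    rfl
  have h1 : ∀ a : intSubring K, intMap K L a ∈ Q' ↔ intMap K L a ∈ Q := by
    intro a
    rw [hQ', mem_centre, coe_intMap]
    have h2 : σ₀⁻¹ (algebraMap K L a) = (τ.symm (a : K) : K) := hσ₀K' a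
    rw [h2]
    have h3 := hτ (τ.symm (a : K)) (hintK τ.symm _ a.2)
    rw [AlgEquiv.apply_symm_apply] at h3
    constructor
    · intro h
      have := A.nonunits.add_mem h3 h
      simpa using this
    · intro h
      have := A.nonunits.sub_mem h h3
      simpa using this
  obtain ⟨ρ, hρ⟩ := exists_smul_eq (K := K) Q' Q h1
  set σ₁ : L ≃ₐ[ℚ] L := (ρ.restrictScalars ℚ) * σ₀ with hσ₁
  have hσ₁app : ∀ x : L, σ₁ x = ρ (σ₀ x) := fun x => rfl
  have hσ₁inv : ∀ x : L, σ₁⁻¹ x = σ₀⁻¹ (ρ⁻¹ x) := by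
    intro x
    rw [hσ₁, mul_inv_rev]
    rfl
  have hσ₁K : ∀ x : K, σ₁ (x : L) = (τ x : K) := by
    intro x
    rw [hσ₁app, hσ₀K]
    exact ρ.commutes (τ x)
  -- `σ₁` stabilises `Q`
  have hσ₁Q : ∀ b : L, IsIntegral ℤ b → (σ₁⁻¹ b ∈ A.nonunits ↔ b ∈ A.nonunits) := by
    intro b hb
    have h2 : (⟨b, hb⟩ : intSubring L) ∈ Q ↔ (⟨b, hb⟩ : intSubring L) ∈ ρ • Q' := by rw [← hρ]
    rw [Ideal.mem_pointwise_smul_iff_inv_smul_mem, hQ', mem_centre] at h2
    rw [hσ₁inv]
    exact h2.symm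
  have hσ₁Q' : ∀ b : L, IsIntegral ℤ b → (σ₁ b ∈ A.nonunits ↔ b ∈ A.nonunits) := by
    intro b hb
    have := hσ₁Q (σ₁ b) (hint σ₁ b hb)
    have h3 : σ₁⁻¹ (σ₁ b) = b := by
      change (σ₁⁻¹ * σ₁) b = b
      simp
    rw [h3] at this
    exact this.symm
  let s : intSubring L ≃+* intSubring L := MulSemiringAction.toRingEquiv (L ≃ₐ[ℚ] L) _ σ₁
  have hsapp : ∀ b : intSubring L, ((s b : intSubring L) : L) = σ₁ (b : L) := fun b => rfl
  have hs : Q = Q.map s := by
    ext b
    rw [Ideal.mem_map_of_equiv]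
    constructor
    · intro hb
      refine ⟨s.symm b, ?_, s.apply_symm_apply b⟩
      rw [mem_centre] at hb ⊢
      rw [← hσ₁Q' _ (s.symm b).2, ← hsapp, s.apply_symm_apply]
      exact hb
    · rintro ⟨c, hc, rfl⟩
      rw [mem_centre] at hc ⊢
      rw [hsapp, hσ₁Q' _ c.2]
      exact hc
  have hsK : ∀ a : intSubring K, s (intMap K L a) - intMap K L a ∈ Q := by
    intro a
    rw [mem_centre]
    change σ₁ ((a : K) : L) - ((a : K) : L) ∈ A.nonunits
    rw [hσ₁K]
    exact hτ a a.2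
  obtain ⟨ρ', hρ'Q, hρ'⟩ := exists_stabilizer_congr (K := K) Q s hs hsK
  have hρ'Q' : ∀ b : L, IsIntegral ℤ b → b ∈ A.nonunits → ρ'⁻¹ b ∈ A.nonunits := by
    intro b hb hbA
    have h2 : (⟨b, hb⟩ : intSubring L) ∈ ρ' • Q := by
      rw [hρ'Q, mem_centre]
      exact hbA
    rw [Ideal.mem_pointwise_smul_iff_inv_smul_mem, mem_centre] at h2
    exact h2
  refine ⟨(ρ'.restrictScalars ℚ)⁻¹ * σ₁, ?_, ?_⟩
  · apply mem_inertiaSubgroupIn_of_forall_integral A ℓ hℓ hA
    intro b hb
    have h2 := hρ' ⟨b, hb⟩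
    rw [mem_centre] at h2
    change ρ' b - σ₁ b ∈ A.nonunits at h2
    have hintρ : IsIntegral ℤ (ρ' b - σ₁ b) :=
      (hb.map (ρ'.restrictScalars ℤ)).sub (hint σ₁ b hb)
    have h3 := hρ'Q' _ hintρ h2
    rw [map_sub] at h3
    have h4 : ρ'⁻¹ (ρ' b) = b := by
      change (ρ'⁻¹ * ρ') b = b
      simp
    rw [h4] at h3
    have h5 : ((ρ'.restrictScalars ℚ)⁻¹ * σ₁) b = ρ'⁻¹ (σ₁ b) := rfl
    rw [h5]
    have := A.nonunits.neg_mem h3
    simpa using this
  · intro x
    have h5 : ((ρ'.restrictScalars ℚ)⁻¹ * σ₁) (x : L) = ρ'⁻¹ (σ₁ (x : L)) := rfl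
    rw [h5, hσ₁K]
    exact (ρ'⁻¹).commutes (τ x)

end Lift

section Ramified

variable (K : Type*) [Field K]

instance instIsIntegralClosureInt : IsIntegralClosure (intSubring K) ℤ K where
  algebraMap_injective := Subtype.val_injective
  isIntegral_iff := fun {x} => ⟨fun h => ⟨⟨x, h⟩, rfl⟩, by rintro ⟨y, rfl⟩; exact y.2⟩

theorem exists_ramified_inertia [NumberField K] [IsGalois ℚ K]
    (H : 1 < Module.finrank ℚ K) :
    ∃ p : ℕ, p.Prime ∧ ∀ (P : Ideal (intSubring K)), P.IsPrime → (p : intSubring K) ∈ P →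
      ∃ τ : K ≃ₐ[ℚ] K, τ ≠ 1 ∧ ∀ x : intSubring K, τ • x - x ∈ P := by
  obtain ⟨p, hp, hP⟩ :=
    NumberField.exists_not_isUnramifiedAt_int_of_isGalois (K := K) (𝒪 := intSubring K) H
  refine ⟨p, hp, fun P hPprime hpP => ?_⟩
  have hram := hP P hPprime hpP
  have := (IsIntegralClosure.algebraMap_injective (intSubring K) ℤ K).isDomain
  have := IsIntegralClosure.isDedekindDomain ℤ ℚ K (intSubring K)
  have := IsIntegralClosure.isFractionRing_of_finite_extension ℤ ℚ K (intSubring K)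
  have := IsIntegralClosure.finite ℤ ℚ K (intSubring K)
  have := CharZero.of_module (R := intSubring K) K
  have : SMulDistribClass (K ≃ₐ[ℚ] K) (intSubring K) K :=
    ⟨fun g r s => by
      change g ((r : K) * s) = g (r : K) * g s
      exact map_mul g _ _⟩
  have hgal : IsGaloisGroup (K ≃ₐ[ℚ] K) ℤ (intSubring K) :=
    IsGaloisGroup.of_isFractionRing (K ≃ₐ[ℚ] K) ℤ (intSubring K) ℚ K
  have hcard := Ideal.card_inertia_eq_ramificationIdxIn (G := K ≃ₐ[ℚ] K) (P.under ℤ) P
  rw [Ideal.ramificationIdxIn_eq_ramificationIdx (P.under ℤ) P (K ≃ₐ[ℚ] K)] at hcard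
  rw [← Ideal.ramificationIdx_eq_one_iff, ← hcard] at hram
  have hne : (P.inertia (K ≃ₐ[ℚ] K)) ≠ ⊥ := by
    intro h
    apply hram
    rw [h]
    simp
  obtain ⟨τ, hτ1⟩ := (Subgroup.ne_bot_iff_exists_ne_one).mp hne
  exact ⟨τ.1, fun h => hτ1 (Subtype.ext h), fun x => τ.2 x⟩

end Ramified

section Main

theorem eq_one_of_unramified_everywhere_of_isGalois {L : Type*} [Field L] [Algebra ℚ L]
    [IsGalois ℚ L] {M : Type*} [Monoid M] (χ : (L ≃ₐ[ℚ] L) →* M)
    (hfin : ∃ E : IntermediateField ℚ L, FiniteDimensional ℚ E ∧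
      ∀ σ : L ≃ₐ[ℚ] L, (∀ x ∈ E, σ x = x) → χ σ = 1)
    (hunr : ∀ ℓ : ℕ, ℓ.Prime → ∀ A : ValuationSubring L, A.LiesOverPrime ℓ →
      ∀ σ ∈ A.inertiaSubgroupIn ℚ, χ σ = 1) (σ : L ≃ₐ[ℚ] L) : χ σ = 1 := by
  obtain ⟨E, hE, hEχ⟩ := hfin
  have : CharZero L := algebraRat.charZero L
  let H : Subgroup (L ≃ₐ[ℚ] L) := χ.ker
  have hHn : H.Normal := MonoidHom.normal_ker χ
  have hEH : E.fixingSubgroup ≤ H := by
    intro g hg
    rw [MonoidHom.mem_ker]
    apply hEχ
    intro x hx
    exact (IntermediateField.mem_fixingSubgroup_iff E g).mp hg x hx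
  have hHopen : IsOpen (H : Set (L ≃ₐ[ℚ] L)) :=
    Subgroup.isOpen_mono hEH (IntermediateField.fixingSubgroup_isOpen E)
  have hHclosed : IsClosed (H : Set (L ≃ₐ[ℚ] L)) := Subgroup.isClosed_of_isOpen H hHopen
  let K : IntermediateField ℚ L := IntermediateField.fixedField H
  have hKH : K.fixingSubgroup = H :=
    InfiniteGalois.fixingSubgroup_fixedField (⟨H, hHclosed⟩ : ClosedSubgroup (L ≃ₐ[ℚ] L))
  have hKE : K ≤ E := by
    rw [← InfiniteGalois.fixedField_fixingSubgroup E]
    intro x hx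
    rw [IntermediateField.mem_fixedField_iff] at hx ⊢
    exact fun f hf => hx f (hEH hf)
  have hKfin' : FiniteDimensional ℚ K := by
    have : FiniteDimensional ℚ (E.toSubalgebra.toSubmodule) := hE
    exact Submodule.finiteDimensional_of_le
      (S₁ := K.toSubalgebra.toSubmodule) (S₂ := E.toSubalgebra.toSubmodule) hKE
  have halg : (K.algebra' : Algebra ℚ K) = DivisionRing.toRatAlgebra := Subsingleton.elim _ _
  have hKgal : IsGalois ℚ K := halg ▸ IsGalois.of_fixedField_normal_subgroup H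
  have hKfin : @FiniteDimensional ℚ K _ _ (@Algebra.toModule ℚ K _ _ DivisionRing.toRatAlgebra) :=
    halg ▸ hKfin'
  have hKnf : NumberField K := { to_charZero := inferInstance, to_finiteDimensional := hKfin }
  have hrank : @Module.finrank ℚ K _ _ (@Algebra.toModule ℚ K _ _ DivisionRing.toRatAlgebra)
      = Module.finrank ℚ K := by
    rw [← halg]
  suffices hK1 : Module.finrank ℚ K = 1 by
    have hbot : K = ⊥ := IntermediateField.finrank_eq_one_iff.mp hK1
    have : σ ∈ H := by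
      rw [← hKH, hbot]
      simp
    exact this
  by_contra hne
  have hpos : 0 < Module.finrank ℚ K := Module.finrank_pos
  have H1 : 1 < @Module.finrank ℚ K _ _ (@Algebra.toModule ℚ K _ _ DivisionRing.toRatAlgebra) := by
    rw [hrank]
    omega
  obtain ⟨p, hp, hP⟩ := exists_ramified_inertia K H1
  obtain ⟨A, hA⟩ := exists_liesOverPrime L hp
  obtain ⟨τ, hτ1, hτ⟩ := hP ((centre A).comap (intMap K L)) (Ideal.comap_isPrime _ _) (by
    rw [Ideal.mem_comap, mem_centre]
    have hA' : (p : L) ∈ A.nonunits := hA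
    simpa using hA')
  obtain ⟨g, hg, hgτ⟩ := exists_lift_inertia K A p hp hA τ (by
    intro x hx
    have := hτ ⟨x, hx⟩
    rw [Ideal.mem_comap, mem_centre] at this
    exact this)
  have hgH : g ∈ H := hunr p hp A hA g hg
  apply hτ1
  ext x
  have h1 := hgτ x
  have h2 : g (x : L) = x := by
    have hx : (x : L) ∈ IntermediateField.fixedField H := x.2
    rw [IntermediateField.mem_fixedField_iff] at hx
    exact hx g hgH
  rw [h2] at h1
  simpa using h1.symm

/-- A homomorphism from the absolute Galois group of `ℚ` which factors through a finite level and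
is trivial on all inertia subgroups is trivial (Minkowski). -/
theorem eq_one_of_unramified_everywhere {M : Type*} [Monoid M]
    (χ : (AlgebraicClosure ℚ ≃ₐ[ℚ] AlgebraicClosure ℚ) →* M)
    (hfin : ∃ E : IntermediateField ℚ (AlgebraicClosure ℚ), FiniteDimensional ℚ E ∧
      ∀ σ : AlgebraicClosure ℚ ≃ₐ[ℚ] AlgebraicClosure ℚ, (∀ x ∈ E, σ x = x) → χ σ = 1)
    (hunr : ∀ ℓ : ℕ, ℓ.Prime → ∀ A : ValuationSubring (AlgebraicClosure ℚ), A.LiesOverPrime ℓ →
      ∀ σ ∈ A.inertiaSubgroupIn ℚ, χ σ = 1)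
    (σ : AlgebraicClosure ℚ ≃ₐ[ℚ] AlgebraicClosure ℚ) : χ σ = 1 := by
  have := isGalois_algebraicClosure inferInstance
  exact eq_one_of_unramified_everywhere_of_isGalois χ hfin hunr σ

end Main

end Fermat.Agent.Lib.Minkowski
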